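import Mathlib

/-!
# Abstract Hecke operators on `Hom(Γ, A)`

Let `φ : Γ →* G` be an injective group homomorphism and `α : ι → G` a finite family such that the
cosets `φ(Γ) α i` are pairwise distinct and their union is stable under right multiplication by
`φ(Γ)`.  Then `α i * φ γ = φ (coc γ i) * α (perm γ i)` for a unique `coc γ i : Γ` and
`perm γ i : ι`, and `ψ ↦ (γ ↦ ∑ i, ψ (coc γ i))` is an endomorphism of `Hom(Γ, A)`.
-/

set_option autoImplicit false

namespace Fermat.Agent.Lib.HeckeHom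

variable {Γ G ι : Type*} [Group Γ] [Group G]

/-- The hypotheses making `α` a system of representatives of a "Hecke double coset". -/
structure IsHeckeFamily (φ : Γ →* G) (α : ι → G) : Prop where
  inj : Function.Injective φ
  disj : ∀ (i j : ι) (g : Γ), α i = φ g * α j → i = j
  stable : ∀ (i : ι) (γ : Γ), ∃ (j : ι) (g : Γ), α i * φ γ = φ g * α j

namespace IsHeckeFamily

variable {φ : Γ →* G} {α : ι → G} (h : IsHeckeFamily φ α)
include h

/-- The index `j` with `α i * φ γ ∈ φ(Γ) α j`. -/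
noncomputable def perm (γ : Γ) (i : ι) : ι := (h.stable i γ).choose

/-- The element `g` with `α i * φ γ = φ g * α (perm γ i)`. -/
noncomputable def coc (γ : Γ) (i : ι) : Γ := (h.stable i γ).choose_spec.choose

theorem spec (γ : Γ) (i : ι) : α i * φ γ = φ (h.coc γ i) * α (h.perm γ i) :=
  (h.stable i γ).choose_spec.choose_spec

theorem unique {γ : Γ} {i j : ι} {g : Γ} (e : α i * φ γ = φ g * α j) :
    j = h.perm γ i ∧ g = h.coc γ i := by
  have e' := h.spec γ i
  have hj : j = h.perm γ i := by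
    refine h.disj j (h.perm γ i) (g⁻¹ * h.coc γ i) ?_
    rw [map_mul, map_inv, mul_assoc, ← e', e, inv_mul_cancel_left]
  refine ⟨hj, h.inj ?_⟩
  subst hj
  exact mul_right_cancel (e.symm.trans e')

theorem perm_eq {γ : Γ} {i j : ι} {g : Γ} (e : α i * φ γ = φ g * α j) : h.perm γ i = j :=
  (h.unique e).1.symm

theorem coc_eq {γ : Γ} {i j : ι} {g : Γ} (e : α i * φ γ = φ g * α j) : h.coc γ i = g :=
  (h.unique e).2.symm

theorem mul_aux (γ δ : Γ) (i : ι) :
    α i * φ (γ * δ) = φ (h.coc γ i * h.coc δ (h.perm γ i)) * α (h.perm δ (h.perm γ i)) := by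
  rw [map_mul, ← mul_assoc, h.spec γ i, mul_assoc, h.spec δ (h.perm γ i), map_mul, mul_assoc]

theorem perm_mul (γ δ : Γ) (i : ι) : h.perm (γ * δ) i = h.perm δ (h.perm γ i) :=
  h.perm_eq (h.mul_aux γ δ i)

theorem coc_mul (γ δ : Γ) (i : ι) :
    h.coc (γ * δ) i = h.coc γ i * h.coc δ (h.perm γ i) :=
  h.coc_eq (h.mul_aux γ δ i)

theorem perm_one (i : ι) : h.perm 1 i = i := h.perm_eq (g := 1) (by simp)

theorem coc_one (i : ι) : h.coc 1 i = 1 := h.coc_eq (j := i) (by simp)

/-- `perm γ` as a permutation of the index set. -/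
noncomputable def permEquiv (γ : Γ) : Equiv.Perm ι where
  toFun := h.perm γ
  invFun := h.perm γ⁻¹
  left_inv i := by rw [← h.perm_mul, mul_inv_cancel, h.perm_one]
  right_inv i := by rw [← h.perm_mul, inv_mul_cancel, h.perm_one]

@[simp] theorem permEquiv_apply (γ : Γ) (i : ι) : h.permEquiv γ i = h.perm γ i := rfl

variable [Fintype ι] {A B : Type*} [AddCommGroup A] [AddCommGroup B]

/-- The Hecke operator on `Hom(Γ, A)` attached to a Hecke family. -/
noncomputable def heckeHom : (Additive Γ →+ A) →+ (Additive Γ →+ A) where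
  toFun ψ :=
    { toFun := fun γ => ∑ i, ψ (Additive.ofMul (h.coc (Additive.toMul γ) i))
      map_zero' := by
        simp only [toMul_zero, h.coc_one, ofMul_one, map_zero, Finset.sum_const_zero]
      map_add' := fun γ δ => by
        simp only [toMul_add, h.coc_mul, ofMul_mul, map_add, Finset.sum_add_distrib]
        congr 1
        exact Equiv.sum_comp (h.permEquiv (Additive.toMul γ))
          (fun i => ψ (Additive.ofMul (h.coc (Additive.toMul δ) i))) }
  map_zero' := by
    refine AddMonoidHom.ext fun γ => ?_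
    simp
  map_add' ψ ψ' := by
    refine AddMonoidHom.ext fun γ => ?_
    simp [Finset.sum_add_distrib]

theorem heckeHom_apply (ψ : Additive Γ →+ A) (γ : Γ) :
    h.heckeHom ψ (Additive.ofMul γ) = ∑ i, ψ (Additive.ofMul (h.coc γ i)) := rfl

/-- Naturality in the coefficient group. -/
theorem heckeHom_comp (g : A →+ B) (ψ : Additive Γ →+ A) :
    h.heckeHom (g.comp ψ) = g.comp (h.heckeHom ψ) := by
  refine AddMonoidHom.ext fun γ => ?_
  obtain ⟨γ, rfl⟩ := Additive.ofMul.surjective γ
  simp [heckeHom_apply]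

/-- The telescoping principle: if `F : X → A` changes by `ψ γ` under the action of `γ`, then
`∑ i, F (α i • x)` changes by `heckeHom ψ γ`. -/
theorem sum_sub_sum {X : Type*} [MulAction G X] (F : X → A) (ψ : Additive Γ →+ A)
    (hF : ∀ (γ : Γ) (x : X), F (φ γ • x) - F x = ψ (Additive.ofMul γ)) (γ : Γ) (x : X) :
    ∑ i, F (α i • φ γ • x) - ∑ i, F (α i • x) = h.heckeHom ψ (Additive.ofMul γ) := by
  rw [heckeHom_apply, ← Equiv.sum_comp (h.permEquiv γ) (fun i => F (α i • x)),
    ← Finset.sum_sub_distrib]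
  refine Finset.sum_congr rfl fun i _ => ?_
  rw [← mul_smul, h.spec γ i, mul_smul, permEquiv_apply, hF]

/-- Compatibility with an automorphism `θ` of `Γ` which is induced by an automorphism `Θ` of `G`
permuting the cosets `φ(Γ) α i`. -/
theorem heckeHom_comp_aut (θ : Γ →* Γ) (Θ : G →* G) (hθ : ∀ γ, φ (θ γ) = Θ (φ γ))
    (ν : Equiv.Perm ι) (u : ι → Γ) (hu : ∀ i, Θ (α i) = φ (u i) * α (ν i))
    (ψ : Additive Γ →+ A) :
    h.heckeHom (ψ.comp (MonoidHom.toAdditive θ)) =
      (h.heckeHom ψ).comp (MonoidHom.toAdditive θ) := by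
  refine AddMonoidHom.ext fun γ => ?_
  obtain ⟨γ, rfl⟩ := Additive.ofMul.surjective γ
  have key : ∀ i, h.coc (θ γ) (ν i) = (u i)⁻¹ * θ (h.coc γ i) * u (h.perm γ i) := by
    intro i
    refine h.coc_eq (j := ν (h.perm γ i)) ?_
    have e := congrArg Θ (h.spec γ i)
    rw [map_mul, map_mul, hu, hu, ← hθ, ← hθ] at e
    rw [map_mul, map_mul, map_inv, mul_assoc, mul_assoc, ← e]
    simp [mul_assoc]
  have h1 : (h.heckeHom ψ).comp (MonoidHom.toAdditive θ) (Additive.ofMul γ) =
      ∑ i, ψ (Additive.ofMul (h.coc (θ γ) (ν i))) := by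
    rw [Equiv.sum_comp ν (fun i => ψ (Additive.ofMul (h.coc (θ γ) i)))]
    rfl
  rw [h1, heckeHom_apply]
  simp only [key, ofMul_mul, ofMul_inv, map_add, map_neg, Finset.sum_add_distrib,
    Finset.sum_neg_distrib]
  have h2 : ∑ i, ψ (Additive.ofMul (u (h.perm γ i))) = ∑ i, ψ (Additive.ofMul (u i)) :=
    Equiv.sum_comp (h.permEquiv γ) (fun i => ψ (Additive.ofMul (u i)))
  rw [h2]
  simp only [AddMonoidHom.comp_apply]
  have h3 : ∀ i, (MonoidHom.toAdditive θ) (Additive.ofMul (h.coc γ i)) =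
      Additive.ofMul (θ (h.coc γ i)) := fun i => rfl
  simp only [h3]
  abel

end IsHeckeFamily

end Fermat.Agent.Lib.HeckeHom
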