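import Mathlib
import Fermat.Prelude.Def_ModularForm_HeckeOperator
import Fermat.Prelude.Sol.S_ModularForm_heckeT_slash_eq_self_of_mem_Gamma0
import Fermat.Agent.Lib.HeckeHom.Abstract

/-!
# The Hecke families `T_ℓ` and `U_q` for `Γ₀(N)`
-/

set_option autoImplicit false

open Matrix.SpecialLinearGroup CongruenceSubgroup ModularForm
open scoped MatrixGroups OnePoint

namespace Fermat.Agent.Lib.HeckeHom

open P2MW.S_ModularForm_heckeT_slash_eq_self_of_mem_Gamma0.ModularForm.HeckeSlashInvariance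

/-- The inclusion of `Γ₀(N)` in `GL₂(ℝ)`. -/
noncomputable def incl (N : ℕ) : Gamma0 N →* GL (Fin 2) ℝ :=
  (mapGL ℝ).comp (Gamma0 N).subtype

theorem incl_apply (N : ℕ) (γ : Gamma0 N) : incl N γ = mapGL ℝ (γ : SL(2, ℤ)) := rfl

theorem incl_injective (N : ℕ) : Function.Injective (incl N) :=
  mapGL_injective.comp (Gamma0 N).subtype_injective

theorem incl_entry (N : ℕ) (γ : Gamma0 N) (i j : Fin 2) :
    (incl N γ : GL (Fin 2) ℝ) i j = (((γ : SL(2, ℤ)) i j : ℤ) : ℝ) := by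
  simp [incl_apply]

/-- Representatives for `U_q`. -/
noncomputable def repU (q : ℕ) (x : ZMod q) : GL (Fin 2) ℝ := heckeMatrix q x.val

/-- Representatives for `T_ℓ`. -/
noncomputable def repT (ℓ : ℕ) (x : OnePoint (ZMod ℓ)) : GL (Fin 2) ℝ := heckeRep ℓ x

theorem repT_infty (ℓ : ℕ) : repT ℓ ∞ = heckeDiagMatrix ℓ := rfl

theorem repT_coe (ℓ : ℕ) (j : ZMod ℓ) : repT ℓ (j : OnePoint (ZMod ℓ)) = heckeMatrix ℓ j.val := rfl

theorem heckeMatrix_disj_nat {q : ℕ} (hq : q ≠ 0) (g : SL(2, ℤ)) (i j : ℕ)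
    (e : heckeMatrix q i = mapGL ℝ g * heckeMatrix q j) : (i : ZMod q) = j := by
  have e00 := congrArg (fun M : GL (Fin 2) ℝ => (M : Matrix (Fin 2) (Fin 2) ℝ) 0 0) e
  have e01 := congrArg (fun M : GL (Fin 2) ℝ => (M : Matrix (Fin 2) (Fin 2) ℝ) 0 1) e
  simp [hq, Matrix.mul_apply, Fin.sum_univ_two] at e00 e01
  rw [← e00] at e01
  have h : ((i : ℤ) : ℝ) = ((j + g 0 1 * q : ℤ) : ℝ) := by
    push_cast; linarith
  have h' : (i : ℤ) = j + g 0 1 * q := by exact_mod_cast h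
  have := congrArg (Int.cast : ℤ → ZMod q) h'
  simpa using this

theorem heckeMatrix_disj {q : ℕ} [NeZero q] (g : SL(2, ℤ)) (x y : ZMod q)
    (e : heckeMatrix q x.val = mapGL ℝ g * heckeMatrix q y.val) : x = y := by
  have := heckeMatrix_disj_nat (NeZero.ne q) g _ _ e
  simpa using this

theorem heckeMatrix_ne_diag {ℓ : ℕ} (hℓ : 2 ≤ ℓ) (g : SL(2, ℤ)) (j : ℕ) :
    heckeMatrix ℓ j ≠ mapGL ℝ g * heckeDiagMatrix ℓ := by
  intro e
  have hq : ℓ ≠ 0 := by omega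
  have e00 := congrArg (fun M : GL (Fin 2) ℝ => (M : Matrix (Fin 2) (Fin 2) ℝ) 0 0) e
  simp [hq, Matrix.mul_apply, Fin.sum_univ_two] at e00
  have h : (1 : ℤ) = g 0 0 * ℓ := by exact_mod_cast e00
  have hdvd : (ℓ : ℤ) ∣ 1 := ⟨g 0 0, by linarith⟩
  have := Int.le_of_dvd one_pos hdvd
  omega

theorem heckeDiag_ne_matrix {ℓ : ℕ} (hℓ : 2 ≤ ℓ) (g : SL(2, ℤ)) (j : ℕ) :
    heckeDiagMatrix ℓ ≠ mapGL ℝ g * heckeMatrix ℓ j := by
  intro e
  have hq : ℓ ≠ 0 := by omega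
  have e10 := congrArg (fun M : GL (Fin 2) ℝ => (M : Matrix (Fin 2) (Fin 2) ℝ) 1 0) e
  have e11 := congrArg (fun M : GL (Fin 2) ℝ => (M : Matrix (Fin 2) (Fin 2) ℝ) 1 1) e
  simp [hq, Matrix.mul_apply, Fin.sum_univ_two] at e10 e11
  rw [← e10] at e11
  have h : (1 : ℤ) = g 1 1 * ℓ := by
    have : (1 : ℝ) = ((g 1 1 * ℓ : ℤ) : ℝ) := by push_cast; linarith
    exact_mod_cast this
  have hdvd : (ℓ : ℤ) ∣ 1 := ⟨g 1 1, by linarith⟩
  have := Int.le_of_dvd one_pos hdvd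
  omega

/-- `U_q` is a Hecke family for `Γ₀(N)` when `q ∣ N`. -/
theorem isHeckeFamily_U {N q : ℕ} [NeZero q] (hqN : q ∣ N) :
    IsHeckeFamily (incl N) (repU q) where
  inj := incl_injective N
  disj x y g e := heckeMatrix_disj (g : SL(2, ℤ)) x y e
  stable x γ := by
    have hcN : (N : ℤ) ∣ (γ : SL(2, ℤ)) 1 0 :=
      (ZMod.intCast_zmod_eq_zero_iff_dvd _ _).mp (Gamma0_mem.mp γ.2)
    have hc : (q : ℤ) ∣ (γ : SL(2, ℤ)) 1 0 := (Int.natCast_dvd_natCast.mpr hqN).trans hcN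
    obtain ⟨g', hg', hmul⟩ := heckeMatrix_mul_of_dvd (γ : SL(2, ℤ)) hc x
    refine ⟨_, ⟨g', ?_⟩, hmul⟩
    rw [Gamma0_mem, hg']
    push_cast
    rw [Gamma0_mem.mp γ.2, mul_zero]

/-- `T_ℓ` is a Hecke family for `Γ₀(N)` when `ℓ` is a prime not dividing `N`. -/
theorem isHeckeFamily_T {N ℓ : ℕ} [Fact ℓ.Prime] (hℓN : ¬ ℓ ∣ N) :
    IsHeckeFamily (incl N) (repT ℓ) where
  inj := incl_injective N
  disj x y g e := by
    have h2 : 2 ≤ ℓ := (Fact.out : ℓ.Prime).two_le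
    have : NeZero ℓ := ⟨(Fact.out : ℓ.Prime).ne_zero⟩
    induction x using OnePoint.rec with
    | infty =>
      induction y using OnePoint.rec with
      | infty => rfl
      | coe j => exact absurd e (heckeDiag_ne_matrix h2 _ _)
    | coe i =>
      induction y using OnePoint.rec with
      | infty => exact absurd e (heckeMatrix_ne_diag h2 _ _)
      | coe j => exact congrArg _ (heckeMatrix_disj (g : SL(2, ℤ)) i j e)
  stable x γ := by
    have hcN : (N : ℤ) ∣ (γ : SL(2, ℤ)) 1 0 :=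
      (ZMod.intCast_zmod_eq_zero_iff_dvd _ _).mp (Gamma0_mem.mp γ.2)
    obtain ⟨g', hg', hmul⟩ := heckeRep_mul hℓN (γ : SL(2, ℤ)) hcN x
    exact ⟨_, ⟨g', Gamma0_mem.mpr ((ZMod.intCast_zmod_eq_zero_iff_dvd _ _).mpr hg')⟩, hmul⟩

variable {A : Type*} [AddCommGroup A]

/-- The operator `T_ℓ` on `Hom(Γ₀(N), A)`. -/
noncomputable def heckeHomT {N ℓ : ℕ} (hℓ : ℓ.Prime) (hℓN : ¬ ℓ ∣ N) :
    (Additive (Gamma0 N) →+ A) →+ (Additive (Gamma0 N) →+ A) :=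
  haveI : Fact ℓ.Prime := ⟨hℓ⟩
  (isHeckeFamily_T hℓN).heckeHom

/-- The operator `U_q` on `Hom(Γ₀(N), A)`. -/
noncomputable def heckeHomU {N q : ℕ} [NeZero N] (hqN : q ∣ N) :
    (Additive (Gamma0 N) →+ A) →+ (Additive (Gamma0 N) →+ A) :=
  haveI : NeZero q := ⟨fun h => NeZero.ne N (by simpa [h] using hqN)⟩
  (isHeckeFamily_U hqN).heckeHom

end Fermat.Agent.Lib.HeckeHom
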