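import Mathlib
import Fermat.Prelude.Def_ModularForm_HeckeOperatorForms
import Fermat.Prelude.Def_ModularCurve_PeriodHomPair
import Fermat.Agent.S21.Primitive
import Fermat.Agent.Lib.HeckeHom.Gamma0

/-!
# The period map is Hecke equivariant
-/

set_option autoImplicit false

open Matrix.SpecialLinearGroup CongruenceSubgroup ModularForm UpperHalfPlane Filter Topology
open ModularCurve ModularCurve.Period
open scoped MatrixGroups OnePoint ModularForm

namespace Fermat.Agent.Lib.HeckeHom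

open P2MW.S_ModularForm_heckeT_slash_eq_self_of_mem_Gamma0.ModularForm.HeckeSlashInvariance

/-- Chain rule for a primitive composed with a Möbius transformation of positive determinant. -/
theorem hasDerivAt_comp_smul_GL {F f : ℍ → ℂ}
    (hF : ∀ τ : ℍ, HasDerivAt (F ∘ ofComplex) (f τ) ↑τ)
    (g : GL (Fin 2) ℝ) (hg : 0 < g.val.det) (τ : ℍ) :
    HasDerivAt ((fun w : ℍ => F (g • w)) ∘ ofComplex) ((f ∣[(2 : ℤ)] g) τ) ↑τ := by
  have h1 := (hasStrictDerivAt_smul hg τ).hasDerivAt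
  have h2 : HasDerivAt (F ∘ ofComplex) (f (g • τ)) ↑(g • ofComplex (τ : ℂ)) := by
    rw [ofComplex_apply]; exact hF (g • τ)
  have h3 := h2.comp (τ : ℂ) h1
  have hfun : ((fun w : ℍ => F (g • w)) ∘ ofComplex) =
      (F ∘ ofComplex) ∘ (fun z : ℂ => (((g • ofComplex z : ℍ)) : ℂ)) := by
    funext z
    simp only [Function.comp_apply, ofComplex_apply]
  rw [hfun]
  refine h3.congr_deriv ?_
  have hσ : UpperHalfPlane.σ g = .refl ℝ ℂ := by
    rw [UpperHalfPlane.σ, if_pos (by simpa using hg)]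
  rw [ModularForm.slash_apply, hσ]
  have hz := denom_ne_zero g τ
  have habs : |(g.det : ℝ)| = g.val.det := by
    rw [Matrix.GeneralLinearGroup.val_det_apply]; exact abs_of_pos hg
  simp only [ContinuousAlgEquiv.refl_apply, habs]
  norm_num
  field_simp

theorem incl_smul (N : ℕ) (γ : Gamma0 N) (z : ℍ) : incl N γ • z = (γ : SL(2, ℤ)) • z := rfl

/-- General equivariance: if `g = ∑ i, f ∣[2] α i` for a Hecke family `α` of matrices of positive
determinant preserving the cusp `i∞`, then the periods of `g` are given by the Hecke operator on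
`Hom(Γ₀(N), ℂ)`. -/
theorem periodMap_eq_heckeHom {N : ℕ} [NeZero N] {ι : Type*} [Fintype ι] {α : ι → GL (Fin 2) ℝ}
    (h : IsHeckeFamily (incl N) α) (hdet : ∀ i, 0 < (α i).val.det)
    (hinf : ∀ i, Tendsto (fun z : ℍ => α i • z) atImInfty atImInfty)
    (f g : CuspForm (Gamma0 N) 2) (hg : (g : ℍ → ℂ) = ∑ i, (f : ℍ → ℂ) ∣[(2 : ℤ)] α i) :
    periodMap N g = h.heckeHom (periodMap N f) := by
  obtain ⟨F, hF⟩ := Fermat.Agent.S21.exists_primitive N f
  obtain ⟨G₀, hG₀⟩ := Fermat.Agent.S21.exists_primitive N g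
  set G : ℍ → ℂ := fun z => ∑ i, F (α i • z) with hG
  have hGd : ∀ τ : ℍ, HasDerivAt (G ∘ ofComplex) (g τ) ↑τ := by
    intro τ
    have h1 : HasDerivAt (fun z : ℂ => ∑ i, ((fun w : ℍ => F (α i • w)) ∘ ofComplex) z)
        (∑ i, ((f : ℍ → ℂ) ∣[(2 : ℤ)] α i) τ) ↑τ :=
      HasDerivAt.fun_sum fun i _ => hasDerivAt_comp_smul_GL hF.1 (α i) (hdet i) τ
    have h2 : g τ = ∑ i, ((f : ℍ → ℂ) ∣[(2 : ℤ)] α i) τ := by
      rw [hg, Finset.sum_apply]
    rw [h2]
    exact h1
  have hG0 : Tendsto G atImInfty (𝓝 0) := by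
    have : Tendsto G atImInfty (𝓝 (∑ _i : ι, (0 : ℂ))) :=
      tendsto_finsetSum _ fun i _ => hF.2.1.comp (hinf i)
    simpa using this
  have hGG : G₀ = G := Fermat.Agent.S21.primitive_unique hG₀.1 hG₀.2.1 hGd hG0
  subst hGG
  refine AddMonoidHom.ext fun γ => ?_
  obtain ⟨γ, rfl⟩ := Additive.ofMul.surjective γ
  rw [Fermat.Agent.S21.periodMap_apply hG₀ γ I]
  exact h.sum_sub_sum F (periodMap N f)
    (fun δ x => (Fermat.Agent.S21.periodMap_apply hF δ x).symm) γ I

theorem tendsto_heckeMatrix_smul {p : ℕ} (hp : p ≠ 0) (j : ℕ) :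
    Tendsto (fun z : ℍ => heckeMatrix p j • z) atImInfty atImInfty := by
  rw [atImInfty, tendsto_comap_iff]
  have him : (UpperHalfPlane.im ∘ fun z : ℍ => heckeMatrix p j • z) =
      fun z : ℍ => z.im / p := by
    funext z
    have := congrArg Complex.im (coe_heckeMatrix_smul hp j z)
    simp only [Function.comp_apply]
    rw [← UpperHalfPlane.coe_im, this]
    have h2 : ((z : ℂ) + j) / p = (((z : ℂ) + j)) / ((p : ℝ) : ℂ) := by simp
    rw [h2, Complex.div_ofReal_im]
    simp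
  rw [him]
  exact (tendsto_comap (f := UpperHalfPlane.im) (x := atTop)).atTop_div_const
    (by exact_mod_cast Nat.pos_of_ne_zero hp)

theorem tendsto_heckeDiagMatrix_smul {p : ℕ} (hp : p ≠ 0) :
    Tendsto (fun z : ℍ => heckeDiagMatrix p • z) atImInfty atImInfty := by
  rw [atImInfty, tendsto_comap_iff]
  have him : (UpperHalfPlane.im ∘ fun z : ℍ => heckeDiagMatrix p • z) =
      fun z : ℍ => (p : ℝ) * z.im := by
    funext z
    have := congrArg Complex.im (coe_heckeDiagMatrix_smul hp z)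
    simp only [Function.comp_apply]
    rw [← UpperHalfPlane.coe_im, this]
    have h2 : (p : ℂ) * (z : ℂ) = ((p : ℝ) : ℂ) * (z : ℂ) := by simp
    rw [h2, Complex.im_ofReal_mul]
    simp
  rw [him]
  exact (tendsto_comap (f := UpperHalfPlane.im) (x := atTop)).const_mul_atTop
    (by exact_mod_cast Nat.pos_of_ne_zero hp)

/-- The period map intertwines `T_ℓ` on cusp forms with `T_ℓ` on `Hom(Γ₀(N), ℂ)`. -/
theorem periodMap_heckeT {N ℓ : ℕ} [NeZero N] (hℓ : ℓ.Prime) (hℓN : ¬ ℓ ∣ N)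
    (f : CuspForm (Gamma0 N) 2) :
    periodMap N (CuspForm.heckeTLin 2 hℓ hℓN f) = heckeHomT hℓ hℓN (periodMap N f) := by
  have : Fact ℓ.Prime := ⟨hℓ⟩
  have : NeZero ℓ := ⟨hℓ.ne_zero⟩
  refine periodMap_eq_heckeHom (isHeckeFamily_T hℓN) ?_ ?_ f _ ?_
  · intro x
    induction x using OnePoint.rec with
    | infty => rw [repT_infty]; simpa using det_heckeDiagMatrix_pos ℓ
    | coe j => rw [repT_coe]; simpa using det_heckeMatrix_pos ℓ j.val
  · intro x
    induction x using OnePoint.rec with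
    | infty => exact tendsto_heckeDiagMatrix_smul hℓ.ne_zero
    | coe j => exact tendsto_heckeMatrix_smul hℓ.ne_zero j.val
  · rw [CuspForm.coe_heckeTLin_apply, heckeT_eq_sum_onePoint]
    rfl

/-- The period map intertwines `U_q` on cusp forms with `U_q` on `Hom(Γ₀(N), ℂ)`. -/
theorem periodMap_heckeU {N q : ℕ} [NeZero N] (hqN : q ∣ N) (f : CuspForm (Gamma0 N) 2) :
    periodMap N (CuspForm.heckeULin 2 hqN f) = heckeHomU hqN (periodMap N f) := by
  have hq : q ≠ 0 := fun h => NeZero.ne N (by simpa [h] using hqN)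
  have : NeZero q := ⟨hq⟩
  refine periodMap_eq_heckeHom (isHeckeFamily_U hqN) ?_ ?_ f _ ?_
  · intro x
    rw [repU]; simpa using det_heckeMatrix_pos q x.val
  · intro x
    exact tendsto_heckeMatrix_smul hq x.val
  · rw [CuspForm.coe_heckeULin_apply, heckeU_eq_sum_zmod]
    rfl

end Fermat.Agent.Lib.HeckeHom
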