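import Mathlib
import Fermat.Agent.Lib.HeckeHom.Period

/-!
# Hecke operators on `Hom(Γ₀(N), A)`: the involution, the period pair, characters
-/

set_option autoImplicit false

open Matrix.SpecialLinearGroup CongruenceSubgroup ModularForm UpperHalfPlane
open ModularCurve ModularCurve.Period
open scoped MatrixGroups OnePoint ModularForm

namespace Fermat.Agent.Lib.HeckeHom

/-- The matrix `diag(1,-1)`. -/
noncomputable def Jmat : GL (Fin 2) ℝ :=
  Matrix.GeneralLinearGroup.mkOfDetNeZero !![1, 0; 0, -1] (by simp [Matrix.det_fin_two_of])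

theorem Jmat_val : (Jmat : Matrix (Fin 2) (Fin 2) ℝ) = !![1, 0; 0, -1] := rfl

theorem Jmat_mul_self : Jmat * Jmat = 1 := by
  ext i j
  fin_cases i <;> fin_cases j <;> simp [Jmat_val, Matrix.mul_apply, Fin.sum_univ_two]

theorem Jmat_inv : Jmat⁻¹ = Jmat := inv_eq_of_mul_eq_one_left Jmat_mul_self

/-- Conjugation by `diag(1,-1)`. -/
noncomputable def Jconj : GL (Fin 2) ℝ →* GL (Fin 2) ℝ := (MulAut.conj Jmat).toMonoidHom

theorem Jconj_apply (g : GL (Fin 2) ℝ) : Jconj g = Jmat * g * Jmat := by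
  show Jmat * g * Jmat⁻¹ = _
  rw [Jmat_inv]

theorem Jconj_val (g : GL (Fin 2) ℝ) :
    (Jconj g : Matrix (Fin 2) (Fin 2) ℝ) = !![g 0 0, -g 0 1; -g 1 0, g 1 1] := by
  rw [Jconj_apply]
  ext i j
  fin_cases i <;> fin_cases j <;>
    simp [Jmat_val, Matrix.mul_apply, Fin.sum_univ_two, Matrix.vecMul, dotProduct]

theorem incl_jConj (N : ℕ) (γ : Gamma0 N) : incl N (jConjGamma0 N γ) = Jconj (incl N γ) := by
  apply Units.ext
  rw [Jconj_val]
  ext i j
  fin_cases i <;> fin_cases j <;> simp [incl_apply, jConjMat]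

/-- The translation `[[1,t],[0,1]]` as an element of `Γ₀(N)`. -/
noncomputable def transl (N : ℕ) (t : ℤ) : Gamma0 N :=
  ⟨ModularGroup.T ^ t, by rw [Gamma0_mem, ModularGroup.coe_T_zpow]; simp⟩

theorem incl_transl_val (N : ℕ) (t : ℤ) :
    (incl N (transl N t) : Matrix (Fin 2) (Fin 2) ℝ) = !![1, (t : ℝ); 0, 1] := by
  ext i j
  rw [incl_entry]
  show (((ModularGroup.T ^ t : SL(2, ℤ)) i j : ℤ) : ℝ) = _
  rw [ModularGroup.coe_T_zpow]
  fin_cases i <;> fin_cases j <;> simp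

theorem Jconj_heckeMatrix_nat {q : ℕ} (hq : q ≠ 0) (N : ℕ) (a b : ℕ) (e : ℤ)
    (he : (a : ℤ) + (b : ℤ) = (q : ℤ) * e) :
    Jconj (heckeMatrix q a) = incl N (transl N (-e)) * heckeMatrix q b := by
  apply Units.ext
  rw [Jconj_val, Units.val_mul, incl_transl_val, val_heckeMatrix hq, val_heckeMatrix hq]
  have he' : ((a : ℤ) : ℝ) + ((b : ℤ) : ℝ) = (q : ℝ) * (e : ℝ) := by exact_mod_cast he
  push_cast at he'
  ext i j
  fin_cases i <;> fin_cases j <;> simp [Matrix.mul_apply, Fin.sum_univ_two]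
  linarith

theorem Jconj_heckeMatrix {q : ℕ} [NeZero q] (N : ℕ) (x : ZMod q) :
    ∃ u : Gamma0 N, Jconj (heckeMatrix q x.val) = incl N u * heckeMatrix q (-x).val := by
  obtain ⟨e, he⟩ : (q : ℤ) ∣ (x.val : ℤ) + ((-x).val : ℤ) := by
    rw [← ZMod.intCast_zmod_eq_zero_iff_dvd]
    push_cast
    simp
  exact ⟨_, Jconj_heckeMatrix_nat (NeZero.ne q) N _ _ e he⟩

theorem Jconj_heckeDiagMatrix {q : ℕ} (hq : q ≠ 0) :
    Jconj (heckeDiagMatrix q) = heckeDiagMatrix q := by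
  apply Units.ext
  rw [Jconj_val, val_heckeDiagMatrix hq]
  ext i j
  fin_cases i <;> fin_cases j <;> simp

/-- `x ↦ -x` on `ℙ¹(𝔽_ℓ)`. -/
def negPt (ℓ : ℕ) : Equiv.Perm (OnePoint (ZMod ℓ)) where
  toFun x := x.elim ∞ (fun j => ((-j : ZMod ℓ) : OnePoint (ZMod ℓ)))
  invFun x := x.elim ∞ (fun j => ((-j : ZMod ℓ) : OnePoint (ZMod ℓ)))
  left_inv x := by induction x using OnePoint.rec <;> simp
  right_inv x := by induction x using OnePoint.rec <;> simp

@[simp] theorem negPt_infty (ℓ : ℕ) : negPt ℓ ∞ = ∞ := rfl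

@[simp] theorem negPt_coe (ℓ : ℕ) (j : ZMod ℓ) :
    negPt ℓ (j : OnePoint (ZMod ℓ)) = ((-j : ZMod ℓ) : OnePoint (ZMod ℓ)) := rfl

variable {A : Type*} [AddCommGroup A]

section Involution

variable (R : Type*) [Semiring R] [Module R A]

/-- `T_ℓ` commutes with the involution `ψ ↦ ψ ∘ (conjugation by diag(1,-1))`. -/
theorem heckeHomT_charInvolution {N ℓ : ℕ} (hℓ : ℓ.Prime) (hℓN : ¬ ℓ ∣ N)
    (ψ : Additive (Gamma0 N) →+ A) :
    heckeHomT hℓ hℓN (charInvolution N R A ψ) = charInvolution N R A (heckeHomT hℓ hℓN ψ) := by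
  have : Fact ℓ.Prime := ⟨hℓ⟩
  have : NeZero ℓ := ⟨hℓ.ne_zero⟩
  have hex : ∀ x : OnePoint (ZMod ℓ), ∃ u : Gamma0 N,
      Jconj (repT ℓ x) = incl N u * repT ℓ (negPt ℓ x) := by
    intro x
    induction x using OnePoint.rec with
    | infty => exact ⟨1, by rw [negPt_infty, repT_infty, Jconj_heckeDiagMatrix hℓ.ne_zero]; simp⟩
    | coe j => exact Jconj_heckeMatrix N j
  choose u hu using hex
  exact (isHeckeFamily_T hℓN).heckeHom_comp_aut (jConjGamma0 N) Jconj (incl_jConj N)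
    (negPt ℓ) u hu ψ

/-- `U_q` commutes with the involution `ψ ↦ ψ ∘ (conjugation by diag(1,-1))`. -/
theorem heckeHomU_charInvolution {N q : ℕ} [NeZero N] (hqN : q ∣ N)
    (ψ : Additive (Gamma0 N) →+ A) :
    heckeHomU hqN (charInvolution N R A ψ) = charInvolution N R A (heckeHomU hqN ψ) := by
  have hq : q ≠ 0 := fun h => NeZero.ne N (by simpa [h] using hqN)
  have : NeZero q := ⟨hq⟩
  have hex : ∀ x : ZMod q, ∃ u : Gamma0 N,
      Jconj (repU q x) = incl N u * repU q (Equiv.neg (ZMod q) x) := fun x => Jconj_heckeMatrix N x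
  choose u hu using hex
  exact (isHeckeFamily_U hqN).heckeHom_comp_aut (jConjGamma0 N) Jconj (incl_jConj N)
    (Equiv.neg (ZMod q)) u hu ψ

end Involution

section Pair

/-- A formula for the period pair. -/
theorem periodHomPair_apply (N : ℕ) [NeZero N] (f g : CuspForm (Gamma0 N) 2) :
    periodHomPair N (f, g) =
      (periodMap N f + charInvolution N ℂ ℂ (periodMap N f)) +
        (periodMap N g - charInvolution N ℂ ℂ (periodMap N g)) := by
  obtain ⟨pml, hpml, h⟩ := periodHomPair_def N (Fermat.Agent.S21.existsPeriodMapLinear N)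
  rw [h]
  simp [LinearMap.coprod_apply, hpml]

/-- The period pair intertwines `T_ℓ`. -/
theorem periodHomPair_heckeT {N ℓ : ℕ} [NeZero N] (hℓ : ℓ.Prime) (hℓN : ¬ ℓ ∣ N)
    (f g : CuspForm (Gamma0 N) 2) :
    periodHomPair N (CuspForm.heckeTLin 2 hℓ hℓN f, CuspForm.heckeTLin 2 hℓ hℓN g) =
      heckeHomT hℓ hℓN (periodHomPair N (f, g)) := by
  rw [periodHomPair_apply, periodHomPair_apply, periodMap_heckeT, periodMap_heckeT, map_add,
    map_add, map_sub, heckeHomT_charInvolution, heckeHomT_charInvolution]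

/-- The period pair intertwines `U_q`. -/
theorem periodHomPair_heckeU {N q : ℕ} [NeZero N] (hqN : q ∣ N)
    (f g : CuspForm (Gamma0 N) 2) :
    periodHomPair N (CuspForm.heckeULin 2 hqN f, CuspForm.heckeULin 2 hqN g) =
      heckeHomU hqN (periodHomPair N (f, g)) := by
  rw [periodHomPair_apply, periodHomPair_apply, periodMap_heckeU, periodMap_heckeU, map_add,
    map_add, map_sub, heckeHomU_charInvolution, heckeHomU_charInvolution]

end Pair

section Character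

/-- The lower right entry modulo `N`, as a homomorphism to the units of `ZMod N`. -/
noncomputable def dUnit (N : ℕ) : Gamma0 N →* (ZMod N)ˣ := (Gamma0Map N).toHomUnits

theorem coe_dUnit (N : ℕ) (γ : Gamma0 N) :
    ((dUnit N γ : (ZMod N)ˣ) : ZMod N) = (((γ : SL(2, ℤ)) 1 1 : ℤ) : ZMod N) := rfl

theorem c_eq_zero (N : ℕ) (γ : Gamma0 N) : (((γ : SL(2, ℤ)) 1 0 : ℤ) : ZMod N) = 0 :=
  Gamma0_mem.mp γ.2

theorem a_mul_d (N : ℕ) (γ : Gamma0 N) :
    (((γ : SL(2, ℤ)) 0 0 : ℤ) : ZMod N) * (((γ : SL(2, ℤ)) 1 1 : ℤ) : ZMod N) = 1 := by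
  have h := (γ : SL(2, ℤ)).det_coe
  rw [Matrix.det_fin_two] at h
  have := congrArg (Int.cast : ℤ → ZMod N) h
  push_cast at this
  rw [c_eq_zero, mul_zero, sub_zero] at this
  exact this

theorem entry_one_one (N : ℕ) (γ γ' : Gamma0 N) (M M' : GL (Fin 2) ℝ) (m b' m' : ℤ)
    (h10 : M 1 0 = 0) (h11 : M 1 1 = (m : ℝ)) (h01' : M' 0 1 = (b' : ℝ)) (h11' : M' 1 1 = (m' : ℝ))
    (e : M * incl N γ = incl N γ' * M') :
    (m : ZMod N) * (dUnit N γ : ZMod N) = (dUnit N γ' : ZMod N) * (m' : ZMod N) := by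
  have e11 := congrArg (fun X : GL (Fin 2) ℝ => (X : Matrix (Fin 2) (Fin 2) ℝ) 1 1) e
  simp only [Units.val_mul, Matrix.mul_apply, Fin.sum_univ_two, incl_entry, h10, h11, h01',
    h11'] at e11
  have h : m * (γ : SL(2, ℤ)) 1 1 = (γ' : SL(2, ℤ)) 1 0 * b' + (γ' : SL(2, ℤ)) 1 1 * m' := by
    have : ((m * (γ : SL(2, ℤ)) 1 1 : ℤ) : ℝ) =
        (((γ' : SL(2, ℤ)) 1 0 * b' + (γ' : SL(2, ℤ)) 1 1 * m' : ℤ) : ℝ) := by
      push_cast; linarith
    exact_mod_cast this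
  have := congrArg (Int.cast : ℤ → ZMod N) h
  push_cast at this
  rw [c_eq_zero, zero_mul, zero_add] at this
  rw [coe_dUnit, coe_dUnit]
  exact this

theorem entry_zero_zero (N : ℕ) (γ γ' : Gamma0 N) (M M' : GL (Fin 2) ℝ) (b : ℤ)
    (h00 : M 0 0 = 1) (h01 : M 0 1 = (b : ℝ)) (h00' : M' 0 0 = 1) (h10' : M' 1 0 = 0)
    (e : M * incl N γ = incl N γ' * M') : dUnit N γ' = dUnit N γ := by
  have e00 := congrArg (fun X : GL (Fin 2) ℝ => (X : Matrix (Fin 2) (Fin 2) ℝ) 0 0) e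
  simp only [Units.val_mul, Matrix.mul_apply, Fin.sum_univ_two, incl_entry, h00, h01, h00',
    h10'] at e00
  have h : (γ : SL(2, ℤ)) 0 0 + b * (γ : SL(2, ℤ)) 1 0 = (γ' : SL(2, ℤ)) 0 0 := by
    have : (((γ : SL(2, ℤ)) 0 0 + b * (γ : SL(2, ℤ)) 1 0 : ℤ) : ℝ) =
        (((γ' : SL(2, ℤ)) 0 0 : ℤ) : ℝ) := by
      push_cast; linarith
    exact_mod_cast this
  have h' := congrArg (Int.cast : ℤ → ZMod N) h
  push_cast at h'
  rw [c_eq_zero, mul_zero, add_zero] at h'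
  apply Units.ext
  rw [coe_dUnit, coe_dUnit]
  have h1 := a_mul_d N γ
  have h2 := a_mul_d N γ'
  rw [← h'] at h2
  calc (((γ' : SL(2, ℤ)) 1 1 : ℤ) : ZMod N)
      = ((((γ : SL(2, ℤ)) 0 0 : ℤ) : ZMod N) * (((γ : SL(2, ℤ)) 1 1 : ℤ) : ZMod N)) *
          (((γ' : SL(2, ℤ)) 1 1 : ℤ) : ZMod N) := by rw [h1, one_mul]
    _ = ((((γ : SL(2, ℤ)) 0 0 : ℤ) : ZMod N) * (((γ' : SL(2, ℤ)) 1 1 : ℤ) : ZMod N)) *
          (((γ : SL(2, ℤ)) 1 1 : ℤ) : ZMod N) := by ring
    _ = (((γ : SL(2, ℤ)) 1 1 : ℤ) : ZMod N) := by rw [h2, one_mul]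

/-- A character of `Γ₀(N)` factoring through `d mod N` is an eigenvector of `U_q` with
eigenvalue `q`. -/
theorem heckeHomU_of_factors {N q : ℕ} [NeZero N] (hqN : q ∣ N)
    (lam : (ZMod N)ˣ →* Multiplicative A) (ψ : Additive (Gamma0 N) →+ A)
    (hψ : ∀ γ : Gamma0 N, ψ (Additive.ofMul γ) = Multiplicative.toAdd (lam (dUnit N γ))) :
    heckeHomU hqN ψ = q • ψ := by
  have hq : q ≠ 0 := fun h => NeZero.ne N (by simpa [h] using hqN)
  have : NeZero q := ⟨hq⟩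
  refine AddMonoidHom.ext fun γ => ?_
  obtain ⟨γ, rfl⟩ := Additive.ofMul.surjective γ
  have hfam := isHeckeFamily_U (N := N) hqN
  show hfam.heckeHom ψ (Additive.ofMul γ) = _
  rw [hfam.heckeHom_apply]
  have key : ∀ x : ZMod q, ψ (Additive.ofMul (hfam.coc γ x)) = ψ (Additive.ofMul γ) := by
    intro x
    rw [hψ, hψ]
    congr 2
    refine entry_zero_zero N γ _ (repU q x) (repU q (hfam.perm γ x)) (x.val : ℤ) ?_ ?_ ?_ ?_
      (hfam.spec γ x) <;> simp [repU, hq]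
  simp only [key, Finset.sum_const, Finset.card_univ, ZMod.card, AddMonoidHom.smul_apply]

/-- A character of `Γ₀(N)` factoring through `d mod N` is an eigenvector of `T_ℓ` with
eigenvalue `ℓ + 1`. -/
theorem heckeHomT_of_factors {N ℓ : ℕ} (hℓ : ℓ.Prime) (hℓN : ¬ ℓ ∣ N)
    (lam : (ZMod N)ˣ →* Multiplicative A) (ψ : Additive (Gamma0 N) →+ A)
    (hψ : ∀ γ : Gamma0 N, ψ (Additive.ofMul γ) = Multiplicative.toAdd (lam (dUnit N γ))) :
    heckeHomT hℓ hℓN ψ = (ℓ + 1) • ψ := by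
  have : Fact ℓ.Prime := ⟨hℓ⟩
  have : NeZero ℓ := ⟨hℓ.ne_zero⟩
  have hcop : Nat.Coprime ℓ N := (Nat.Prime.coprime_iff_not_dvd hℓ).mpr hℓN
  refine AddMonoidHom.ext fun γ => ?_
  obtain ⟨γ, rfl⟩ := Additive.ofMul.surjective γ
  have hfam := isHeckeFamily_T (N := N) hℓN
  show hfam.heckeHom ψ (Additive.ofMul γ) = _
  rw [hfam.heckeHom_apply]
  -- integer data of the representatives
  set mm : OnePoint (ZMod ℓ) → ℤ := fun x => x.elim 1 (fun _ => (ℓ : ℤ)) with hmm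
  set bb : OnePoint (ZMod ℓ) → ℤ := fun x => x.elim 0 (fun j => (j.val : ℤ)) with hbb
  set w : OnePoint (ZMod ℓ) → (ZMod N)ˣ := fun x => x.elim 1 (fun _ => ZMod.unitOfCoprime ℓ hcop)
    with hw
  have hwm : ∀ x, ((w x : (ZMod N)ˣ) : ZMod N) = (mm x : ZMod N) := by
    intro x
    induction x using OnePoint.rec <;> simp [hw, hmm]
  have h10 : ∀ x, (repT ℓ x : GL (Fin 2) ℝ) 1 0 = 0 := by
    intro x
    induction x using OnePoint.rec <;> simp [repT_infty, repT_coe, hℓ.ne_zero]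
  have h11 : ∀ x, (repT ℓ x : GL (Fin 2) ℝ) 1 1 = (mm x : ℝ) := by
    intro x
    induction x using OnePoint.rec <;> simp [repT_infty, repT_coe, hℓ.ne_zero, hmm]
  have h01 : ∀ x, (repT ℓ x : GL (Fin 2) ℝ) 0 1 = (bb x : ℝ) := by
    intro x
    induction x using OnePoint.rec <;> simp [repT_infty, repT_coe, hℓ.ne_zero, hbb]
  have hrel : ∀ x, w x * dUnit N γ = dUnit N (hfam.coc γ x) * w (hfam.perm γ x) := by
    intro x
    apply Units.ext
    rw [Units.val_mul, Units.val_mul, hwm, hwm]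
    exact entry_one_one N γ _ (repT ℓ x) (repT ℓ (hfam.perm γ x)) (mm x) (bb (hfam.perm γ x))
      (mm (hfam.perm γ x)) (h10 x) (h11 x) (h01 _) (h11 _) (hfam.spec γ x)
  set a : OnePoint (ZMod ℓ) → A := fun x => Multiplicative.toAdd (lam (w x)) with ha
  have key : ∀ x, ψ (Additive.ofMul (hfam.coc γ x)) =
      ψ (Additive.ofMul γ) + a x - a (hfam.perm γ x) := by
    intro x
    have := congrArg (fun u => Multiplicative.toAdd (lam u)) (hrel x)
    simp only [map_mul, toAdd_mul] at this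
    rw [hψ, hψ, ha]
    simp only
    rw [add_comm (Multiplicative.toAdd (lam (dUnit N γ))), this]
    abel
  simp only [key, Finset.sum_sub_distrib, Finset.sum_add_distrib]
  have hperm : ∑ x, a (hfam.perm γ x) = ∑ x, a x := Equiv.sum_comp (hfam.permEquiv γ) a
  rw [hperm, add_sub_cancel_right, Finset.sum_const, Finset.card_univ]
  have hcard : Fintype.card (OnePoint (ZMod ℓ)) = ℓ + 1 := by
    have : Fintype.card (Option (ZMod ℓ)) = ℓ + 1 := by rw [Fintype.card_option, ZMod.card]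
    exact this
  rw [hcard]
  rfl

end Character

end Fermat.Agent.Lib.HeckeHom
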