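/-
GAL block H (owner helper119): the Hecke algebra of weight two cusp forms acts faithfully on the
lattice `Λ = Hom_par(Γ₀(N), ℤ)`.

* `esEquiv N : S₂ × S₂ ≃ₗ[ℂ] Hom_par(Γ₀(N), ℂ)` (S21);
* `hatHom N : End_ℂ(S₂) →+* End_ℂ(Hom_par(Γ₀(N), ℂ))`, injective;
* `latHom N S : heckeAlgebra N 2 S →+* End_ℤ(Λ)`, injective, sends `T_ℓ`, `U_q` to
  `heckeHomT`, `heckeHomU`.
-/
import Fermat.Agent.Lib.HeckeHom.Char
import Fermat.Agent.S16.Lift.Count
import Fermat.Agent.S21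
import Fermat.Prelude.Def_CuspForm_HeckeAlgebra

set_option autoImplicit false

open CongruenceSubgroup ModularCurve ModularCurve.Period CuspForm
open scoped MatrixGroups

namespace Fermat.Agent.Lib.HeckeHom

open Fermat.Agent.S16.Lift (castTo castTo_apply homPE mem_homPE)

/-! ### Restriction of a ring of endomorphisms along an injective map -/

theorem exists_restrictHom {K L M T : Type*} [Semiring K] [AddCommGroup L] [AddCommGroup M]
    [Module K M] [Ring T] (ι : L →+ M) (hι : Function.Injective ι) (r : T →+* Module.End K M)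
    (hr : ∀ t x, ∃ y, ι y = r t (ι x)) :
    ∃ ρ : T →+* Module.End ℤ L, ∀ t x, ι (ρ t x) = r t (ι x) := by
  choose y hy using hr
  let e : T → Module.End ℤ L := fun t =>
    AddMonoidHom.toIntLinearMap
      { toFun := y t
        map_zero' := hι (by rw [hy, map_zero, map_zero])
        map_add' := fun a b => hι (by rw [hy, map_add, map_add, map_add, hy, hy]) }
  have he : ∀ t x, ι (e t x) = r t (ι x) := fun t x => hy t x
  refine ⟨{ toFun := e, map_one' := ?_, map_mul' := ?_, map_zero' := ?_, map_add' := ?_ }, he⟩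
  · refine LinearMap.ext fun x => hι ?_
    rw [he, map_one]; rfl
  · intro s t
    refine LinearMap.ext fun x => hι ?_
    rw [he, map_mul, Module.End.mul_apply, Module.End.mul_apply, he, he]
  · refine LinearMap.ext fun x => hι ?_
    rw [he, map_zero]; simp
  · intro s t
    refine LinearMap.ext fun x => hι ?_
    rw [he, map_add, LinearMap.add_apply, LinearMap.add_apply, map_add, he, he]

variable (N : ℕ) [NeZero N]

/-- The Eichler-Shimura isomorphism (S21). -/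
noncomputable def esEquiv :
    (CuspForm (Gamma0 N) 2 × CuspForm (Gamma0 N) 2) ≃ₗ[ℂ] parabolicHoms ℂ (Gamma0 N) ℂ :=
  (LinearEquiv.ofInjective (periodHomPair N) (Fermat.Agent.S21.result N).1).trans
    (LinearEquiv.ofEq _ _ (Fermat.Agent.S21.result N).2)

theorem coe_esEquiv (x : CuspForm (Gamma0 N) 2 × CuspForm (Gamma0 N) 2) :
    (esEquiv N x : Additive (Gamma0 N) →+ ℂ) = periodHomPair N x := rfl

/-- The action of `End(S₂)` on `Hom_par(Γ₀(N), ℂ)` by transport of structure. -/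
noncomputable def hatHom : Module.End ℂ (CuspForm (Gamma0 N) 2) →+*
    Module.End ℂ (parabolicHoms ℂ (Gamma0 N) ℂ) :=
  ((esEquiv N).conjRingEquiv : _ →+* _).comp
    ((LinearMap.prodMapRingHom ℂ _ _).comp ((RingHom.id _).prod (RingHom.id _)))

theorem hatHom_esEquiv (t : Module.End ℂ (CuspForm (Gamma0 N) 2))
    (f g : CuspForm (Gamma0 N) 2) :
    hatHom N t (esEquiv N (f, g)) = esEquiv N (t f, t g) := by
  simp [hatHom, LinearEquiv.conjRingEquiv]

theorem hatHom_injective : Function.Injective (hatHom N) := by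
  rw [injective_iff_map_eq_zero]
  intro t ht
  refine LinearMap.ext fun f => ?_
  have h := hatHom_esEquiv N t f 0
  rw [ht, LinearMap.zero_apply] at h
  have h2 := (esEquiv N).map_eq_zero_iff.1 h.symm
  exact congrArg Prod.fst h2

theorem coe_hatHom_T {ℓ : ℕ} (hℓ : ℓ.Prime) (hℓN : ¬ ℓ ∣ N)
    (ψ : parabolicHoms ℂ (Gamma0 N) ℂ) :
    (hatHom N (heckeTLin 2 hℓ hℓN) ψ : Additive (Gamma0 N) →+ ℂ) = heckeHomT hℓ hℓN ψ.1 := by
  obtain ⟨⟨f, g⟩, rfl⟩ := (esEquiv N).surjective ψ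
  rw [hatHom_esEquiv, coe_esEquiv, periodHomPair_heckeT]
  rfl

theorem coe_hatHom_U {q : ℕ} (hqN : q ∣ N) (ψ : parabolicHoms ℂ (Gamma0 N) ℂ) :
    (hatHom N (heckeULin 2 hqN) ψ : Additive (Gamma0 N) →+ ℂ) = heckeHomU hqN ψ.1 := by
  obtain ⟨⟨f, g⟩, rfl⟩ := (esEquiv N).surjective ψ
  rw [hatHom_esEquiv, coe_esEquiv, periodHomPair_heckeU]
  rfl

/-! ### Stability of the parabolic subspaces -/

theorem heckeHomT_mem_parabolicHoms_complex {ℓ : ℕ} (hℓ : ℓ.Prime) (hℓN : ¬ ℓ ∣ N)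
    {ψ : Additive (Gamma0 N) →+ ℂ} (hψ : ψ ∈ parabolicHoms ℂ (Gamma0 N) ℂ) :
    heckeHomT hℓ hℓN ψ ∈ parabolicHoms ℂ (Gamma0 N) ℂ := by
  rw [← coe_hatHom_T N hℓ hℓN ⟨ψ, hψ⟩]
  exact Subtype.coe_prop _

theorem heckeHomU_mem_parabolicHoms_complex {q : ℕ} (hqN : q ∣ N)
    {ψ : Additive (Gamma0 N) →+ ℂ} (hψ : ψ ∈ parabolicHoms ℂ (Gamma0 N) ℂ) :
    heckeHomU hqN ψ ∈ parabolicHoms ℂ (Gamma0 N) ℂ := by
  rw [← coe_hatHom_U N hqN ⟨ψ, hψ⟩]
  exact Subtype.coe_prop _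

theorem castTo_complex_injective {B : Type*} [AddGroup B] :
    Function.Injective (castTo ℂ : (B →+ ℤ) →+ (B →+ ℂ)) := by
  intro φ ψ h
  refine AddMonoidHom.ext fun x => ?_
  have := DFunLike.congr_fun h x
  simpa using this

omit [NeZero N] in
theorem castTo_mem_parabolicHoms_iff {φ : Additive (Gamma0 N) →+ ℤ} :
    castTo ℂ φ ∈ parabolicHoms ℂ (Gamma0 N) ℂ ↔ φ ∈ parabolicHoms ℤ (Gamma0 N) ℤ := by
  constructor
  · intro h γ hγ
    have := h γ hγ
    simpa using this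
  · intro h γ hγ
    have := h γ hγ
    simp [this]

omit [NeZero N] in
theorem heckeHomT_castTo {A : Type*} [AddCommGroupWithOne A] {ℓ : ℕ} (hℓ : ℓ.Prime)
    (hℓN : ¬ ℓ ∣ N) (φ : Additive (Gamma0 N) →+ ℤ) :
    heckeHomT hℓ hℓN (castTo A φ) = castTo A (heckeHomT hℓ hℓN φ) := by
  have : Fact ℓ.Prime := ⟨hℓ⟩
  exact IsHeckeFamily.heckeHom_comp (isHeckeFamily_T hℓN) (Int.castAddHom A) φ

theorem heckeHomU_castTo {A : Type*} [AddCommGroupWithOne A] {q : ℕ} (hqN : q ∣ N)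
    (φ : Additive (Gamma0 N) →+ ℤ) :
    heckeHomU hqN (castTo A φ) = castTo A (heckeHomU hqN φ) := by
  have : NeZero q := ⟨fun h => NeZero.ne N (by simpa [h] using hqN)⟩
  exact IsHeckeFamily.heckeHom_comp (isHeckeFamily_U hqN) (Int.castAddHom A) φ

theorem heckeHomT_mem_parabolicHoms_int {ℓ : ℕ} (hℓ : ℓ.Prime) (hℓN : ¬ ℓ ∣ N)
    {φ : Additive (Gamma0 N) →+ ℤ} (hφ : φ ∈ parabolicHoms ℤ (Gamma0 N) ℤ) :
    heckeHomT hℓ hℓN φ ∈ parabolicHoms ℤ (Gamma0 N) ℤ := by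
  rw [← castTo_mem_parabolicHoms_iff, ← heckeHomT_castTo]
  exact heckeHomT_mem_parabolicHoms_complex N hℓ hℓN ((castTo_mem_parabolicHoms_iff N).2 hφ)

theorem heckeHomU_mem_parabolicHoms_int {q : ℕ} (hqN : q ∣ N)
    {φ : Additive (Gamma0 N) →+ ℤ} (hφ : φ ∈ parabolicHoms ℤ (Gamma0 N) ℤ) :
    heckeHomU hqN φ ∈ parabolicHoms ℤ (Gamma0 N) ℤ := by
  rw [← castTo_mem_parabolicHoms_iff, ← heckeHomU_castTo]
  exact heckeHomU_mem_parabolicHoms_complex N hqN ((castTo_mem_parabolicHoms_iff N).2 hφ)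

omit [NeZero N] in
/-- reductions of parabolic integral homs kill parabolic and elliptic elements. -/
theorem castTo_mem_homPE (n : ℕ) {φ : Additive (Gamma0 N) →+ ℤ}
    (hφ : φ ∈ parabolicHoms ℤ (Gamma0 N) ℤ) : castTo (ZMod n) φ ∈ homPE N (ZMod n) := by
  intro x hx
  rw [castTo_apply, Fermat.Agent.S16.Lift.apply_eq_zero_of_mem_peSet hφ hx, Int.cast_zero]

theorem heckeHomT_mem_homPE (n : ℕ) {ℓ : ℕ} (hℓ : ℓ.Prime) (hℓN : ¬ ℓ ∣ N)
    {χ : Additive (Gamma0 N) →+ ZMod n} (hχ : χ ∈ homPE N (ZMod n)) :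
    heckeHomT hℓ hℓN χ ∈ homPE N (ZMod n) := by
  obtain ⟨φ, hφ, rfl⟩ := Fermat.Agent.S16.Lift.exists_lift_of_mem_homPE N n hχ
  rw [heckeHomT_castTo]
  exact castTo_mem_homPE N n (heckeHomT_mem_parabolicHoms_int N hℓ hℓN hφ)

theorem heckeHomU_mem_homPE (n : ℕ) {q : ℕ} (hqN : q ∣ N)
    {χ : Additive (Gamma0 N) →+ ZMod n} (hχ : χ ∈ homPE N (ZMod n)) :
    heckeHomU hqN χ ∈ homPE N (ZMod n) := by
  obtain ⟨φ, hφ, rfl⟩ := Fermat.Agent.S16.Lift.exists_lift_of_mem_homPE N n hχ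
  rw [heckeHomU_castTo]
  exact castTo_mem_homPE N n (heckeHomU_mem_parabolicHoms_int N hqN hφ)

/-! ### The action on the lattice -/

/-- The lattice `Λ = Hom_par(Γ₀(N), ℤ)`. -/
abbrev Lam : Submodule ℤ (Additive (Gamma0 N) →+ ℤ) := parabolicHoms ℤ (Gamma0 N) ℤ

/-- The embedding `Λ → Hom_par(Γ₀(N), ℂ)`. -/
noncomputable def lamEmb : Lam N →+ parabolicHoms ℂ (Gamma0 N) ℂ where
  toFun φ := ⟨castTo ℂ φ.1, (castTo_mem_parabolicHoms_iff N).2 φ.2⟩
  map_zero' := Subtype.ext (map_zero _)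
  map_add' _ _ := Subtype.ext (map_add _ _ _)

omit [NeZero N] in
theorem coe_lamEmb (φ : Lam N) : (lamEmb N φ : Additive (Gamma0 N) →+ ℂ) = castTo ℂ φ.1 := rfl

omit [NeZero N] in
theorem lamEmb_injective : Function.Injective (lamEmb N) := fun _ _ h =>
  Subtype.ext (castTo_complex_injective (congrArg Subtype.val h))

variable (S : Set ℕ)

theorem exists_lamEmb_eq_hatHom (t : heckeAlgebra N 2 S) (φ : Lam N) :
    ∃ φ' : Lam N, lamEmb N φ' = hatHom N t.1 (lamEmb N φ) := by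
  obtain ⟨t, ht⟩ := t
  simp only
  induction ht using Algebra.adjoin_induction generalizing φ with
  | mem x hx =>
    rcases hx with ⟨ℓ, hℓ, hℓN, -, rfl⟩ | ⟨q, hqN, -, -, rfl⟩
    · refine ⟨⟨heckeHomT hℓ hℓN φ.1, heckeHomT_mem_parabolicHoms_int N hℓ hℓN φ.2⟩, ?_⟩
      apply Subtype.ext
      rw [coe_hatHom_T, coe_lamEmb, coe_lamEmb, heckeHomT_castTo]
    · refine ⟨⟨heckeHomU hqN φ.1, heckeHomU_mem_parabolicHoms_int N hqN φ.2⟩, ?_⟩
      apply Subtype.ext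
      rw [coe_hatHom_U, coe_lamEmb, coe_lamEmb, heckeHomU_castTo]
  | algebraMap a =>
    refine ⟨a • φ, ?_⟩
    rw [map_zsmul, Algebra.algebraMap_eq_smul_one, map_zsmul, map_one]
    rfl
  | add x y _ _ hx hy =>
    obtain ⟨a, ha⟩ := hx φ
    obtain ⟨b, hb⟩ := hy φ
    exact ⟨a + b, by rw [map_add, map_add, ha, hb]; rfl⟩
  | mul x y _ _ hx hy =>
    obtain ⟨b, hb⟩ := hy φ
    obtain ⟨a, ha⟩ := hx b
    exact ⟨a, by rw [ha, hb, map_mul]; rfl⟩

theorem exists_latHom : ∃ ρ : heckeAlgebra N 2 S →+* Module.End ℤ (Lam N),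
    ∀ t φ, lamEmb N (ρ t φ) = hatHom N t.1 (lamEmb N φ) :=
  exists_restrictHom (lamEmb N) (lamEmb_injective N)
    ((hatHom N).comp (heckeAlgebra N 2 S).val.toRingHom) (exists_lamEmb_eq_hatHom N S)

/-- **The action of the Hecke algebra on the lattice `Hom_par(Γ₀(N), ℤ)`.** -/
noncomputable def latHom : heckeAlgebra N 2 S →+* Module.End ℤ (Lam N) := (exists_latHom N S).choose

theorem lamEmb_latHom (t : heckeAlgebra N 2 S) (φ : Lam N) :
    lamEmb N (latHom N S t φ) = hatHom N t.1 (lamEmb N φ) := (exists_latHom N S).choose_spec t φ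

theorem coe_latHom_T {ℓ : ℕ} (hℓ : ℓ.Prime) (hℓN : ¬ ℓ ∣ N) (hℓS : ℓ ∉ S) (φ : Lam N) :
    (latHom N S (heckeAlgebra.T hℓ hℓN hℓS) φ : Additive (Gamma0 N) →+ ℤ)
      = heckeHomT hℓ hℓN φ.1 := by
  apply castTo_complex_injective
  rw [← coe_lamEmb, lamEmb_latHom, heckeAlgebra.coe_T, coe_hatHom_T, coe_lamEmb, heckeHomT_castTo]

theorem coe_latHom_U {q : ℕ} (hq : q.Prime) (hqN : q ∣ N) (hqS : q ∉ S) (φ : Lam N) :
    (latHom N S (heckeAlgebra.U hq hqN hqS) φ : Additive (Gamma0 N) →+ ℤ)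
      = heckeHomU hqN φ.1 := by
  apply castTo_complex_injective
  rw [← coe_lamEmb, lamEmb_latHom, heckeAlgebra.coe_U, coe_hatHom_U, coe_lamEmb, heckeHomU_castTo]

/-- The image of the lattice spans `Hom_par(Γ₀(N), ℂ)`. -/
theorem span_range_lamEmb :
    Submodule.span ℂ (Set.range (lamEmb N)) = ⊤ := by
  rw [eq_top_iff]
  rintro ⟨ψ, hψ⟩ -
  have h := Fermat.Agent.S16.Lift.span_parabolicHoms_int N
  have hψ' := hψ
  rw [← h] at hψ'
  have key : ∀ χ (hχ : χ ∈ Submodule.span ℂ (castTo ℂ '' (parabolicHoms ℤ (Gamma0 N) ℤ :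
      Set (Additive (Gamma0 N) →+ ℤ)))), ∀ hχ' : χ ∈ parabolicHoms ℂ (Gamma0 N) ℂ,
      (⟨χ, hχ'⟩ : parabolicHoms ℂ (Gamma0 N) ℂ) ∈ Submodule.span ℂ (Set.range (lamEmb N)) := by
    intro χ hχ
    induction hχ using Submodule.span_induction with
    | mem x hx =>
      intro hx'
      obtain ⟨φ, hφ, rfl⟩ := hx
      exact Submodule.subset_span ⟨⟨φ, hφ⟩, rfl⟩
    | zero => intro _; exact Submodule.zero_mem _
    | add x y hx hy ihx ihy =>
      intro _
      have hx' : x ∈ parabolicHoms ℂ (Gamma0 N) ℂ := h ▸ hx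
      have hy' : y ∈ parabolicHoms ℂ (Gamma0 N) ℂ := h ▸ hy
      exact Submodule.add_mem _ (ihx hx') (ihy hy')
    | smul a x hx ihx =>
      intro _
      have hx' : x ∈ parabolicHoms ℂ (Gamma0 N) ℂ := h ▸ hx
      exact Submodule.smul_mem _ a (ihx hx')
  exact key ψ hψ' hψ

/-- **Faithfulness** of the action on the lattice. -/
theorem latHom_injective : Function.Injective (latHom N S) := by
  rw [injective_iff_map_eq_zero]
  intro t ht
  apply Subtype.ext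
  apply hatHom_injective N
  rw [ZeroMemClass.coe_zero, map_zero]
  refine LinearMap.ext_on (span_range_lamEmb N) ?_
  rintro _ ⟨φ, rfl⟩
  rw [← lamEmb_latHom, ht, LinearMap.zero_apply, map_zero, LinearMap.zero_apply]

end Fermat.Agent.Lib.HeckeHom
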