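/-
GAL block H3 (owner helper261): faithfulness with bounded loss, abstract algebra (Mathlib only).

`Λ` a free `ℤ`-module of finite rank, `T` a commutative ring acting faithfully on `Λ` through
`ι : T →+* Module.End ℤ Λ`.  If `t` maps `Λ` into `n Λ` then
* `(n : O) ∣ χ t` for every `χ : T →+* O`, `O` an integrally closed domain of characteristic zero;
* `c • t ∈ n T` for a constant `c > 0` which depends neither on `n` nor on `t`;
* for `n = p ^ k`: `t ∈ p ^ (k - a) T` for a constant `a`.
-/
import Mathlib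

set_option autoImplicit false

namespace Fermat.Agent.Lib.HeckeHom.Saturation

open Polynomial

variable {Λ : Type*} [AddCommGroup Λ] [Module.Free ℤ Λ] [Module.Finite ℤ Λ]

omit [Module.Finite ℤ Λ] in
/-- an endomorphism with image in `n Λ` is `n` times an endomorphism. -/
theorem exists_eq_nsmul (n : ℕ) (hn : 0 < n) (f : Module.End ℤ Λ)
    (hf : ∀ x, ∃ y, f x = n • y) : ∃ e : Module.End ℤ Λ, f = n • e := by
  classical
  have hinj : ∀ y y' : Λ, n • y = n • y' → y = y' := by
    intro y y' h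
    have h' : (n : ℤ) • y = (n : ℤ) • y' := by simpa using h
    exact smul_right_injective Λ (Int.natCast_ne_zero.2 hn.ne') h'
  choose g hg using hf
  refine ⟨{ toFun := g, map_add' := ?_, map_smul' := ?_ }, ?_⟩
  · intro x y
    apply hinj
    rw [← hg, map_add, hg, hg, smul_add]
  · intro a x
    apply hinj
    rw [← hg, map_smul, hg, RingHom.id_apply, smul_comm]
  · ext x
    exact hg x

variable {T : Type*} [CommRing T] (ι : T →+* Module.End ℤ Λ)

/-- **Faithfulness, domain-valued form.** -/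
theorem natCast_dvd_of_forall_exists (hι : Function.Injective ι) (n : ℕ) (hn : 0 < n) (t : T)
    (ht : ∀ x, ∃ y, ι t x = n • y) {O : Type*} [CommRing O] [IsDomain O] [IsIntegrallyClosed O]
    [CharZero O] (χ : T →+* O) : (n : O) ∣ χ t := by
  obtain ⟨e, he⟩ := exists_eq_nsmul n hn (ι t) ht
  set P : ℤ[X] := LinearMap.charpoly e with hP
  have hPm : P.Monic := LinearMap.charpoly_monic e
  have hPe : aeval e P = 0 := LinearMap.aeval_self_charpoly e
  have h1 : aeval (ι t) (scaleRoots P (n : ℤ)) = 0 := by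
    have := scaleRoots_aeval_eq_zero (r := (n : ℤ)) hPe
    rw [he]
    convert this using 2
    simp
  have h2 : aeval t (scaleRoots P (n : ℤ)) = 0 := by
    apply hι
    rw [map_zero, ← h1]
    exact (Polynomial.aeval_algHom_apply ι.toIntAlgHom t _).symm
  have h3 : aeval (χ t) (scaleRoots P (n : ℤ)) = 0 := by
    have := Polynomial.aeval_algHom_apply χ.toIntAlgHom t (scaleRoots P (n : ℤ))
    rw [h2, map_zero] at this
    exact this
  set K := FractionRing O
  have hnK : ((n : ℤ) : K) ≠ 0 := by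
    simpa using hn.ne'
  set z : K := algebraMap O K (χ t) / ((n : ℤ) : K) with hz
  have h4 : aeval z P = 0 := by
    have h5 : aeval (algebraMap ℤ K (n : ℤ) * z) (scaleRoots P (n : ℤ)) = 0 := by
      have : algebraMap ℤ K (n : ℤ) * z = algebraMap O K (χ t) := by
        rw [hz, eq_intCast, mul_div_cancel₀ _ hnK]
      rw [this, Polynomial.aeval_algebraMap_apply, h3, map_zero]
    rw [aeval_def, scaleRoots_eval₂_mul, ← aeval_def] at h5
    rcases mul_eq_zero.1 h5 with h | h
    · rw [eq_intCast] at h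
      exact absurd (eq_zero_of_pow_eq_zero h) hnK
    · exact h
  have hzint : IsIntegral O z := (show IsIntegral ℤ z from ⟨P, hPm, h4⟩).tower_top
  obtain ⟨y, hy⟩ := IsIntegrallyClosed.isIntegral_iff.1 hzint
  refine ⟨y, ?_⟩
  apply IsFractionRing.injective O K
  rw [map_mul, hy, hz, map_natCast]
  have : ((n : ℕ) : K) = ((n : ℤ) : K) := by push_cast; rfl
  rw [this, mul_div_cancel₀ _ hnK]

/-- the saturation of a subgroup of a finitely generated abelian group has finite exponent over
it. -/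
theorem exists_nsmul_mem_of_nsmul_mem {E : Type*} [AddCommGroup E] [Module.Finite ℤ E]
    (R : Submodule ℤ E) :
    ∃ c : ℕ, 0 < c ∧ ∀ (e : E) (n : ℕ), 0 < n → n • e ∈ R → c • e ∈ R := by
  classical
  let Sat : Submodule ℤ E :=
    { carrier := {e | ∃ n : ℕ, 0 < n ∧ n • e ∈ R}
      zero_mem' := ⟨1, one_pos, by simp⟩
      add_mem' := by
        rintro x y ⟨n, hn, hx⟩ ⟨m, hm, hy⟩
        refine ⟨n * m, Nat.mul_pos hn hm, ?_⟩
        rw [smul_add]
        refine R.add_mem ?_ ?_
        · rw [mul_comm, mul_smul]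
          exact R.smul_of_tower_mem m hx
        · rw [mul_smul]
          exact R.smul_of_tower_mem n hy
      smul_mem' := by
        rintro a x ⟨n, hn, hx⟩
        refine ⟨n, hn, ?_⟩
        rw [smul_comm]
        exact R.smul_mem a hx }
  obtain ⟨s, hs⟩ : Sat.FG := IsNoetherian.noetherian Sat
  have hmem : ∀ x ∈ s, ∃ n : ℕ, 0 < n ∧ n • x ∈ R := by
    intro x hx
    have : x ∈ Sat := hs ▸ Submodule.subset_span hx
    exact this
  choose! m hm0 hm using hmem
  refine ⟨∏ x ∈ s, m x, Finset.prod_pos hm0, ?_⟩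
  have key : ∀ e ∈ Submodule.span ℤ (s : Set E), (∏ x ∈ s, m x) • e ∈ R := by
    intro e heS
    induction heS using Submodule.span_induction with
    | mem x hx =>
      rw [← Finset.mul_prod_erase s m hx, mul_comm, mul_smul]
      exact R.smul_of_tower_mem _ (hm x hx)
    | zero => simp
    | add x y _ _ hx hy =>
      rw [smul_add]
      exact R.add_mem hx hy
    | smul a x _ hx =>
      rw [smul_comm]
      exact R.smul_mem a hx
  intro e n hn he
  refine key e ?_
  rw [hs]
  exact ⟨n, hn, he⟩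

/-- **Faithfulness with bounded loss.** -/
theorem exists_nsmul_eq_nsmul (hι : Function.Injective ι) :
    ∃ c : ℕ, 0 < c ∧ ∀ (n : ℕ) (t : T), (∀ x, ∃ y, ι t x = n • y) → ∃ s : T, c • t = n • s := by
  obtain ⟨c, hc, h⟩ := exists_nsmul_mem_of_nsmul_mem
    (LinearMap.range ι.toIntAlgHom.toLinearMap)
  refine ⟨c, hc, ?_⟩
  intro n t ht
  rcases Nat.eq_zero_or_pos n with rfl | hn
  · refine ⟨0, ?_⟩
    have : ι t = 0 := by
      ext x
      obtain ⟨y, hy⟩ := ht x
      simpa using hy
    have ht0 : t = 0 := hι (by rw [this, map_zero])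
    simp [ht0]
  · obtain ⟨e, he⟩ := exists_eq_nsmul n hn (ι t) ht
    obtain ⟨s, hs⟩ := h e n hn ⟨t, he⟩
    refine ⟨s, hι ?_⟩
    have hs' : ι s = c • e := hs
    rw [map_nsmul, map_nsmul, he, hs', smul_comm]

/-- **Faithfulness with bounded loss, prime power form.** -/
theorem exists_mem_span_pow (hι : Function.Injective ι) (p : ℕ) (hp : p.Prime) :
    ∃ a : ℕ, ∀ (k : ℕ) (t : T), (∀ x, ∃ y, ι t x = (p ^ k) • y) →
      t ∈ Ideal.span {((p ^ (k - a) : ℕ) : T)} := by
  obtain ⟨c, hc, h⟩ := exists_nsmul_eq_nsmul ι hι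
  obtain ⟨a, c', hc', rfl⟩ := Nat.exists_eq_pow_mul_and_not_dvd hc.ne' p hp.ne_one
  refine ⟨a, ?_⟩
  intro k t ht
  rcases le_total k a with hka | hka
  · rw [Nat.sub_eq_zero_of_le hka]
    simp
  obtain ⟨s, hs⟩ := h (p ^ k) t ht
  -- `T` is torsion free
  have htf : ∀ (m : ℕ) (u : T), 0 < m → m • u = 0 → u = 0 := by
    intro m u hm hu
    apply hι
    rw [map_zero]
    have h1 : m • ι u = 0 := by rw [← map_nsmul, hu, map_zero]
    ext x
    have h2 : (m : ℤ) • ι u x = 0 := by
      have := LinearMap.congr_fun h1 x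
      simpa using this
    rcases smul_eq_zero.1 h2 with h3 | h3
    · exact absurd h3 (Int.natCast_ne_zero.2 hm.ne')
    · simpa using h3
  have h1 : c' • t = p ^ (k - a) • s := by
    have : p ^ a • (c' • t - p ^ (k - a) • s) = 0 := by
      rw [smul_sub, smul_smul, smul_smul, ← pow_add, Nat.add_sub_cancel' hka, hs, sub_self]
    exact sub_eq_zero.1 (htf _ _ (pow_pos hp.pos a) this)
  have hcop : IsCoprime (c' : ℤ) ((p ^ (k - a) : ℕ) : ℤ) := by
    rw [Nat.isCoprime_iff_coprime]
    exact (Nat.Coprime.pow_right _ ((Nat.Prime.coprime_iff_not_dvd hp).2 hc').symm)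
  obtain ⟨u, v, huv⟩ := hcop
  rw [Ideal.mem_span_singleton]
  refine ⟨(u : T) * s + (v : T) * t, ?_⟩
  have h2 : (c' : T) * t = ((p ^ (k - a) : ℕ) : T) * s := by
    simpa [nsmul_eq_mul] using h1
  have h3 : (u : T) * (c' : T) + (v : T) * ((p ^ (k - a) : ℕ) : T) = 1 := by
    have := congrArg (Int.cast : ℤ → T) huv
    push_cast at this ⊢
    exact this
  calc t = ((u : T) * (c' : T) + (v : T) * ((p ^ (k - a) : ℕ) : T)) * t := by rw [h3, one_mul]
    _ = (u : T) * ((c' : T) * t) + (v : T) * ((p ^ (k - a) : ℕ) : T) * t := by ring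
    _ = ((p ^ (k - a) : ℕ) : T) * ((u : T) * s + (v : T) * t) := by rw [h2]; ring

end Fermat.Agent.Lib.HeckeHom.Saturation
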