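/-
GAL block H3 (owner helper261): faithfulness of the Hecke action on
`Hom_{par,ell}(Γ₀(N), ℤ/n)`, with bounded loss.

* `redHom N n : Λ →+ homPE N (ZMod n)`, onto, with kernel `n Λ`;
* `actMod N S n : heckeAlgebra N 2 S →+* End(homPE N (ZMod n))`, compatible with `latHom` and with
  `heckeHomT`, `heckeHomU`;
* `actMod N S n t = 0` implies `(n : O) ∣ χ t` (`O` an integrally closed domain of characteristic
  zero), `c • t ∈ n 𝕋` (`c` independent of `n`, `t`), and `t ∈ p ^ (k - a) 𝕋` when `n = p ^ k`;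
* the `ℤ[X_ℓ]`-module structure on `homPE N (ZMod n)` and the faithfulness statement in the shape
  of the field `faithful` of `Fermat.Agent.S30.Level`.
-/
import Fermat.Agent.Lib.HeckeHom.LatHom
import Fermat.Agent.Lib.HeckeHom.Saturation

set_option autoImplicit false

open CongruenceSubgroup ModularCurve ModularCurve.Period CuspForm
open scoped MatrixGroups

namespace Fermat.Agent.Lib.HeckeHom

open Fermat.Agent.S16.Lift (castTo castTo_apply homPE mem_homPE)

/-! ### Descent of a ring of endomorphisms along a surjective map -/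

theorem exists_descendHom {L M T : Type*} [AddCommGroup L] [AddCommGroup M] [Ring T]
    (π : L →+ M) (hπ : Function.Surjective π) (r : T →+* Module.End ℤ L)
    (hr : ∀ t x, π x = 0 → π (r t x) = 0) :
    ∃ ρ : T →+* Module.End ℤ M, ∀ t x, ρ t (π x) = π (r t x) := by
  choose s hs using hπ
  have hwd : ∀ t x y, π x = π y → π (r t x) = π (r t y) := by
    intro t x y hxy
    have := hr t (x - y) (by rw [map_sub, hxy, sub_self])
    rwa [map_sub, map_sub, sub_eq_zero] at this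
  let e : T → Module.End ℤ M := fun t =>
    AddMonoidHom.toIntLinearMap
      { toFun := fun m => π (r t (s m))
        map_zero' := hr t _ (hs 0)
        map_add' := fun a b => by
          rw [← map_add, ← map_add]
          exact hwd t _ _ (by rw [hs, map_add, hs, hs]) }
  have he : ∀ t x, e t (π x) = π (r t x) := fun t x => hwd t _ _ (hs _)
  refine ⟨{ toFun := e, map_one' := ?_, map_mul' := ?_, map_zero' := ?_, map_add' := ?_ }, he⟩
  · refine LinearMap.ext fun m => ?_
    rw [← hs m, he, map_one]; rfl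
  · intro a b
    refine LinearMap.ext fun m => ?_
    rw [← hs m, he, map_mul, Module.End.mul_apply, Module.End.mul_apply, he, he]
  · refine LinearMap.ext fun m => ?_
    rw [← hs m, he, map_zero]; simp
  · intro a b
    refine LinearMap.ext fun m => ?_
    rw [← hs m, he, map_add, LinearMap.add_apply, LinearMap.add_apply, map_add, he, he]

variable (N : ℕ) [NeZero N]

instance instFreeLam : Module.Free ℤ (Lam N) :=
  (Fermat.Agent.S16.Lift.free_finite_parabolicHoms_int N).1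

instance instFiniteLam : Module.Finite ℤ (Lam N) :=
  (Fermat.Agent.S16.Lift.free_finite_parabolicHoms_int N).2

/-- Reduction modulo `n` of the lattice. -/
noncomputable def redHom (n : ℕ) : Lam N →+ homPE N (ZMod n) where
  toFun φ := ⟨castTo (ZMod n) φ.1, castTo_mem_homPE N n φ.2⟩
  map_zero' := Subtype.ext (map_zero _)
  map_add' _ _ := Subtype.ext (map_add _ _ _)

omit [NeZero N] in
theorem coe_redHom (n : ℕ) (φ : Lam N) :
    (redHom N n φ : Additive (Gamma0 N) →+ ZMod n) = castTo (ZMod n) φ.1 := rfl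

theorem redHom_surjective (n : ℕ) : Function.Surjective (redHom N n) := by
  rintro ⟨χ, hχ⟩
  obtain ⟨φ, hφ, h⟩ := Fermat.Agent.S16.Lift.exists_lift_of_mem_homPE N n hχ
  exact ⟨⟨φ, hφ⟩, Subtype.ext h⟩

omit [NeZero N] in
theorem redHom_nsmul_self (n : ℕ) (φ : Lam N) : redHom N n (n • φ) = 0 := by
  apply Subtype.ext
  refine AddMonoidHom.ext fun x => ?_
  rw [coe_redHom, castTo_apply]
  simp

omit [NeZero N] in
theorem redHom_eq_zero_iff (n : ℕ) (φ : Lam N) :
    redHom N n φ = 0 ↔ ∃ φ' : Lam N, φ = n • φ' := by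
  constructor
  · intro h
    have hdvd : ∀ x, (n : ℤ) ∣ φ.1 x := by
      intro x
      rw [← CharP.intCast_eq_zero_iff (ZMod n) n]
      have := congrArg (fun χ : homPE N (ZMod n) => χ.1 x) h
      exact this
    rcases Nat.eq_zero_or_pos n with rfl | hn
    · refine ⟨0, Subtype.ext (AddMonoidHom.ext fun x => ?_)⟩
      simpa using hdvd x
    have hn' : (n : ℤ) ≠ 0 := by exact_mod_cast hn.ne'
    let ψ : Additive (Gamma0 N) →+ ℤ := AddMonoidHom.mk' (fun x => φ.1 x / n) (by
      intro x y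
      rw [map_add]
      exact Int.add_ediv_of_dvd_left (hdvd x))
    have hψ : n • ψ = φ.1 := by
      refine AddMonoidHom.ext fun x => ?_
      show n • (φ.1 x / n) = _
      rw [nsmul_eq_mul, Int.mul_ediv_cancel' (hdvd x)]
    have hψΛ : ψ ∈ Lam N := by
      intro γ hγ
      have h1 : φ.1 (Additive.ofMul γ) = 0 := φ.2 γ hγ
      rw [← hψ] at h1
      have h2 : (n : ℤ) * ψ (Additive.ofMul γ) = 0 := by simpa using h1
      rcases mul_eq_zero.1 h2 with h3 | h3
      · exact absurd h3 hn'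
      · exact h3
    exact ⟨⟨ψ, hψΛ⟩, Subtype.ext hψ.symm⟩
  · rintro ⟨φ', rfl⟩
    exact redHom_nsmul_self N n φ'

variable (S : Set ℕ)

theorem exists_actMod (n : ℕ) :
    ∃ ρ : heckeAlgebra N 2 S →+* Module.End ℤ (homPE N (ZMod n)),
      ∀ t φ, ρ t (redHom N n φ) = redHom N n (latHom N S t φ) := by
  refine exists_descendHom (redHom N n) (redHom_surjective N n) (latHom N S) ?_
  intro t φ hφ
  obtain ⟨φ', rfl⟩ := (redHom_eq_zero_iff N n φ).1 hφ
  rw [map_nsmul]
  exact redHom_nsmul_self N n _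

/-- **The action of the Hecke algebra on `Hom_{par,ell}(Γ₀(N), ℤ/n)`.** -/
noncomputable def actMod (n : ℕ) : heckeAlgebra N 2 S →+* Module.End ℤ (homPE N (ZMod n)) :=
  (exists_actMod N S n).choose

theorem actMod_redHom (n : ℕ) (t : heckeAlgebra N 2 S) (φ : Lam N) :
    actMod N S n t (redHom N n φ) = redHom N n (latHom N S t φ) :=
  (exists_actMod N S n).choose_spec t φ

theorem coe_actMod_T (n : ℕ) {ℓ : ℕ} (hℓ : ℓ.Prime) (hℓN : ¬ ℓ ∣ N) (hℓS : ℓ ∉ S)
    (χ : homPE N (ZMod n)) :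
    (actMod N S n (heckeAlgebra.T hℓ hℓN hℓS) χ : Additive (Gamma0 N) →+ ZMod n)
      = heckeHomT hℓ hℓN χ.1 := by
  obtain ⟨φ, rfl⟩ := redHom_surjective N n χ
  rw [actMod_redHom, coe_redHom, coe_latHom_T, coe_redHom, heckeHomT_castTo]

theorem coe_actMod_U (n : ℕ) {q : ℕ} (hq : q.Prime) (hqN : q ∣ N) (hqS : q ∉ S)
    (χ : homPE N (ZMod n)) :
    (actMod N S n (heckeAlgebra.U hq hqN hqS) χ : Additive (Gamma0 N) →+ ZMod n)
      = heckeHomU hqN χ.1 := by
  obtain ⟨φ, rfl⟩ := redHom_surjective N n χ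
  rw [actMod_redHom, coe_redHom, coe_latHom_U, coe_redHom, heckeHomU_castTo]

theorem actMod_eq_zero_iff (n : ℕ) (t : heckeAlgebra N 2 S) :
    actMod N S n t = 0 ↔ ∀ φ : Lam N, ∃ φ' : Lam N, latHom N S t φ = n • φ' := by
  constructor
  · intro h φ
    rw [← redHom_eq_zero_iff, ← actMod_redHom, h, LinearMap.zero_apply]
  · intro h
    refine LinearMap.ext fun χ => ?_
    obtain ⟨φ, rfl⟩ := redHom_surjective N n χ
    rw [actMod_redHom, LinearMap.zero_apply, redHom_eq_zero_iff]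
    exact h φ

/-- **Faithfulness, domain-valued form** (no loss). -/
theorem natCast_dvd_of_actMod_eq_zero (n : ℕ) (hn : 0 < n) (t : heckeAlgebra N 2 S)
    (ht : actMod N S n t = 0) {O : Type*} [CommRing O] [IsDomain O] [IsIntegrallyClosed O]
    [CharZero O] (χ : heckeAlgebra N 2 S →+* O) : (n : O) ∣ χ t :=
  Saturation.natCast_dvd_of_forall_exists (latHom N S) (latHom_injective N S) n hn t
    ((actMod_eq_zero_iff N S n t).1 ht) χ

/-- **Faithfulness with bounded loss.** -/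
theorem exists_nsmul_eq_nsmul_of_actMod_eq_zero :
    ∃ c : ℕ, 0 < c ∧ ∀ (n : ℕ) (t : heckeAlgebra N 2 S), actMod N S n t = 0 →
      ∃ s : heckeAlgebra N 2 S, c • t = n • s := by
  obtain ⟨c, hc, h⟩ := Saturation.exists_nsmul_eq_nsmul (latHom N S) (latHom_injective N S)
  exact ⟨c, hc, fun n t ht => h n t ((actMod_eq_zero_iff N S n t).1 ht)⟩

/-- **Faithfulness with bounded loss, prime power form.** -/
theorem exists_mem_span_pow_of_actMod_eq_zero (p : ℕ) (hp : p.Prime) :
    ∃ a : ℕ, ∀ (k : ℕ) (t : heckeAlgebra N 2 S), actMod N S (p ^ k) t = 0 →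
      t ∈ Ideal.span {((p ^ (k - a) : ℕ) : heckeAlgebra N 2 S)} := by
  obtain ⟨a, h⟩ := Saturation.exists_mem_span_pow (latHom N S) (latHom_injective N S) p hp
  exact ⟨a, fun k t ht => h k t ((actMod_eq_zero_iff N S (p ^ k) t).1 ht)⟩

/-- The Hecke algebra is a finitely generated abelian group. -/
theorem finite_heckeAlgebra : Module.Finite ℤ (heckeAlgebra N 2 S) :=
  Module.Finite.of_injective (latHom N S).toIntAlgHom.toLinearMap (latHom_injective N S)

/-! ### The polynomial ring `ℤ[X_ℓ]` -/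

/-- `T_ℓ` at the good primes outside `S`, zero at all other indices. -/
noncomputable def tOf (ℓ : ℕ) : heckeAlgebra N 2 S :=
  open Classical in
  if h : ℓ.Prime ∧ ¬ ℓ ∣ N ∧ ℓ ∉ S then heckeAlgebra.T h.1 h.2.1 h.2.2 else 0

theorem tOf_eq {ℓ : ℕ} (hℓ : ℓ.Prime) (hℓN : ¬ ℓ ∣ N) (hℓS : ℓ ∉ S) :
    tOf N S ℓ = heckeAlgebra.T hℓ hℓN hℓS := by
  unfold tOf
  rw [dif_pos ⟨hℓ, hℓN, hℓS⟩]

/-- `ℤ[X_ℓ] → 𝕋`, `X_ℓ ↦ T_ℓ`. -/
noncomputable def polyHom : MvPolynomial ℕ ℤ →+* heckeAlgebra N 2 S :=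
  (MvPolynomial.aeval (tOf N S)).toRingHom

theorem polyHom_X (ℓ : ℕ) : polyHom N S (MvPolynomial.X ℓ) = tOf N S ℓ := by
  simp [polyHom]

theorem map_polyHom {O : Type*} [CommRing O] (χ : heckeAlgebra N 2 S →+* O)
    (P : MvPolynomial ℕ ℤ) :
    χ (polyHom N S P) = MvPolynomial.aeval (fun ℓ => χ (tOf N S ℓ)) P := by
  induction P using MvPolynomial.induction_on with
  | C a => simp [polyHom]
  | add P Q hP hQ => rw [map_add, map_add, hP, hQ, map_add]
  | mul_X P ℓ hP => rw [map_mul, map_mul, hP, polyHom_X, map_mul, MvPolynomial.aeval_X]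

/-- The `ℤ[X_ℓ]`-module structure on `Hom_{par,ell}(Γ₀(N), ℤ/n)`. -/
@[reducible] noncomputable def moduleHA (n : ℕ) :
    Module (MvPolynomial ℕ ℤ) (homPE N (ZMod n)) :=
  Module.compHom _ ((actMod N S n).comp (polyHom N S))

theorem moduleHA_smul_def (n : ℕ) (P : MvPolynomial ℕ ℤ) (χ : homPE N (ZMod n)) :
    letI := moduleHA N S n
    P • χ = actMod N S n (polyHom N S P) χ := rfl

theorem coe_X_smul (n : ℕ) {ℓ : ℕ} (hℓ : ℓ.Prime) (hℓN : ¬ ℓ ∣ N) (hℓS : ℓ ∉ S)
    (χ : homPE N (ZMod n)) :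
    letI := moduleHA N S n
    (((MvPolynomial.X ℓ : MvPolynomial ℕ ℤ) • χ : homPE N (ZMod n)) :
      Additive (Gamma0 N) →+ ZMod n) = heckeHomT hℓ hℓN χ.1 := by
  rw [moduleHA_smul_def, polyHom_X, tOf_eq N S hℓ hℓN hℓS, coe_actMod_T]

/-- **Faithfulness in the shape of `Fermat.Agent.S30.Level.faithful`.** -/
theorem aeval_mem_span_of_forall_smul_eq_zero (n : ℕ) (hn : 0 < n) {O : Type*} [CommRing O]
    [IsDomain O] [IsIntegrallyClosed O] [CharZero O] (χ : heckeAlgebra N 2 S →+* O)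
    (P : MvPolynomial ℕ ℤ)
    (hP : letI := moduleHA N S n; ∀ w : homPE N (ZMod n), P • w = 0) :
    MvPolynomial.aeval (fun ℓ => χ (tOf N S ℓ)) P ∈ Ideal.span {((n : ℕ) : O)} := by
  rw [Ideal.mem_span_singleton, ← map_polyHom]
  exact natCast_dvd_of_actMod_eq_zero N S n hn _ (LinearMap.ext hP) χ

/-- **Faithfulness with bounded loss for polynomials** (shape used by S31). -/
theorem exists_polyHom_mem_span_pow (p : ℕ) (hp : p.Prime) :
    ∃ a : ℕ, ∀ (k : ℕ) (P : MvPolynomial ℕ ℤ),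
      (letI := moduleHA N S (p ^ k); ∀ w : homPE N (ZMod (p ^ k)), P • w = 0) →
      polyHom N S P ∈ Ideal.span {((p ^ (k - a) : ℕ) : heckeAlgebra N 2 S)} := by
  obtain ⟨a, h⟩ := exists_mem_span_pow_of_actMod_eq_zero N S p hp
  exact ⟨a, fun k P hP => h k _ (LinearMap.ext hP)⟩

omit [NeZero N] in
theorem nsmul_homPE_eq_zero (n : ℕ) (χ : homPE N (ZMod n)) : n • χ = 0 := by
  apply Subtype.ext
  refine AddMonoidHom.ext fun x => ?_
  simp

end Fermat.Agent.Lib.HeckeHom
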