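/-
GAL block H4 (owner helper119): multiplicative telescoping for multiplier systems.

Let `G` act on a commutative monoid `M` (for instance the multiplicative monoid of a field of
meromorphic functions) and let `x : M` transform under `Γ` by a multiplier `ψ` with `G`-invariant
values: `x | γ = ψ γ * x`.  Then `H = ∏ i, x | α i` transforms under `Γ` by the multiplier
`heckeHom ψ`.  Right and left actions; multiplier given as a monoid homomorphism or as an additive
homomorphism followed by an embedding of the coefficient group.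
-/
import Fermat.Agent.Lib.HeckeHom.Abstract

set_option autoImplicit false

namespace Fermat.Agent.Lib.HeckeHom

namespace IsHeckeFamily

variable {Γ G ι : Type*} [Group Γ] [Group G] {φ : Γ →* G} {α : ι → G} (h : IsHeckeFamily φ α)
variable [Fintype ι] {M : Type*} [CommMonoid M]
include h

/-- **Right action, product form.** -/
theorem act_prod_right (act : G → M →* M) (hact : ∀ g g' x, act (g * g') x = act g' (act g x))
    (ψ : Γ → M) (hinv : ∀ g γ, act g (ψ γ) = ψ γ) (x : M)
    (hx : ∀ γ, act (φ γ) x = ψ γ * x) (γ : Γ) :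
    act (φ γ) (∏ i, act (α i) x) = (∏ i, ψ (h.coc γ i)) * ∏ i, act (α i) x := by
  rw [map_prod, ← Equiv.prod_comp (h.permEquiv γ) (fun i => act (α i) x), ← Finset.prod_mul_distrib]
  refine Finset.prod_congr rfl fun i _ => ?_
  rw [← hact, h.spec γ i, hact, hx, map_mul, hinv, permEquiv_apply]

/-- **Right action, `heckeHom` form.**  The multiplier is `j ∘ ψ` with `ψ : Γ → A` additive and
`j : A → M` a homomorphism with invariant values. -/
theorem act_prod_right_heckeHom {A : Type*} [AddCommGroup A] (act : G → M →* M)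
    (hact : ∀ g g' x, act (g * g') x = act g' (act g x))
    (ψ : Additive Γ →+ A) (j : Multiplicative A →* M) (hinv : ∀ g a, act g (j a) = j a) (x : M)
    (hx : ∀ γ, act (φ γ) x = j (Multiplicative.ofAdd (ψ (Additive.ofMul γ))) * x) (γ : Γ) :
    act (φ γ) (∏ i, act (α i) x)
      = j (Multiplicative.ofAdd (h.heckeHom ψ (Additive.ofMul γ))) * ∏ i, act (α i) x := by
  rw [h.act_prod_right act hact (fun γ => j (Multiplicative.ofAdd (ψ (Additive.ofMul γ))))
    (fun g γ => hinv g _) x hx γ, heckeHom_apply, ofAdd_sum, map_prod]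

/-- **Left action, product form**: `x | g` is `act g⁻¹ x`. -/
theorem act_prod_left (act : G → M →* M) (hact : ∀ g g' x, act (g * g') x = act g (act g' x))
    (ψ : Γ → M) (hinv : ∀ g γ, act g (ψ γ) = ψ γ) (x : M)
    (hx : ∀ γ, act (φ γ)⁻¹ x = ψ γ * x) (γ : Γ) :
    act (φ γ)⁻¹ (∏ i, act (α i)⁻¹ x) = (∏ i, ψ (h.coc γ i)) * ∏ i, act (α i)⁻¹ x :=
  h.act_prod_right (fun g => act g⁻¹) (fun g g' x => by rw [mul_inv_rev, hact]) ψ
    (fun g γ => hinv _ γ) x hx γ

/-- **Left action, `heckeHom` form.** -/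
theorem act_prod_left_heckeHom {A : Type*} [AddCommGroup A] (act : G → M →* M)
    (hact : ∀ g g' x, act (g * g') x = act g (act g' x))
    (ψ : Additive Γ →+ A) (j : Multiplicative A →* M) (hinv : ∀ g a, act g (j a) = j a) (x : M)
    (hx : ∀ γ, act (φ γ)⁻¹ x = j (Multiplicative.ofAdd (ψ (Additive.ofMul γ))) * x) (γ : Γ) :
    act (φ γ)⁻¹ (∏ i, act (α i)⁻¹ x)
      = j (Multiplicative.ofAdd (h.heckeHom ψ (Additive.ofMul γ))) * ∏ i, act (α i)⁻¹ x :=
  h.act_prod_right_heckeHom (fun g => act g⁻¹) (fun g g' x => by rw [mul_inv_rev, hact]) ψ j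
    (fun g a => hinv _ a) x hx γ

/-- Pointwise version for functions on a `G`-set `X` with values in a commutative monoid: if
`F (γ • z) = ψ γ * F z` then `∏ i, F (α i • z)` has multiplier `∏ i, ψ (coc γ i)`. -/
theorem prod_smul {X : Type*} [MulAction G X] (F : X → M) (ψ : Γ → M)
    (hF : ∀ γ z, F (φ γ • z) = ψ γ * F z) (γ : Γ) (z : X) :
    ∏ i, F (α i • φ γ • z) = (∏ i, ψ (h.coc γ i)) * ∏ i, F (α i • z) := by
  rw [← Equiv.prod_comp (h.permEquiv γ) (fun i => F (α i • z)), ← Finset.prod_mul_distrib]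
  refine Finset.prod_congr rfl fun i _ => ?_
  rw [← mul_smul, h.spec γ i, mul_smul, hF, permEquiv_apply]

/-- Pointwise version, `heckeHom` form. -/
theorem prod_smul_heckeHom {X : Type*} [MulAction G X] {A : Type*} [AddCommGroup A] (F : X → M)
    (ψ : Additive Γ →+ A) (j : Multiplicative A →* M)
    (hF : ∀ γ z, F (φ γ • z) = j (Multiplicative.ofAdd (ψ (Additive.ofMul γ))) * F z)
    (γ : Γ) (z : X) :
    ∏ i, F (α i • φ γ • z)
      = j (Multiplicative.ofAdd (h.heckeHom ψ (Additive.ofMul γ))) * ∏ i, F (α i • z) := by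
  rw [h.prod_smul F (fun γ => j (Multiplicative.ofAdd (ψ (Additive.ofMul γ)))) hF γ z,
    heckeHom_apply, ofAdd_sum, map_prod]

end IsHeckeFamily

end Fermat.Agent.Lib.HeckeHom
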